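/-
MW (S17), heights, route γ, brick (γ3): products of linear binary forms at an absolute value.

For a multiset `m` of pairs `(α, β)` put `linProd m = ∏ (α X - β)` (the dehomogenised binary form
`∏ (α Y - β X)`) and `maxProd v m = ∏ max |α|_v |β|_v`.  For EVERY absolute value `v` of `K`:

* `abv_coeff_linProd_le` : `|coeff_j (κ · linProd m)|_v ≤ kap v ^ #m · |κ|_v · maxProd v m`
  (trivial direction);
* `exists_maxProd_le` : there are a finite `Λ ⊂ K` and `e` (depending only on `M`) such that for
  `#m ≤ M`:  `|κ|_v · maxProd v m ≤ (kap v * Hgt Λ v) ^ e · max_j |coeff_j (κ · linProd m)|_v`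
  (the "Gauss lemma" at the non-archimedean places, Gelfond/Mahler at the others; here by ONE
  elementary argument: among `M + 1` nodes there is one at which every linear factor is as large
  as its coefficients, because a linear form is small at ≤ 1 node).

The constants are tame in the sense of `MW/HtM/TameQ.lean`.  Mathlib + TameQ only.
-/
import Mathlib
import Fermat.Agent.MW.HtM.TameQ

set_option autoImplicit false

namespace Fermat.Agent.MW.Adj.Binary

open Polynomial Fermat.Agent.MW.HtM

variable {K : Type*} [Field K]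

/-- `∏ (α X - β)` over a multiset of pairs `(α, β)`. -/
noncomputable def linProd (m : Multiset (K × K)) : K[X] :=
  (m.map fun p => C p.1 * X - C p.2).prod

/-- `∏ max |α| |β|` over a multiset of pairs `(α, β)`. -/
noncomputable def maxProd (v : AbsoluteValue K ℝ) (m : Multiset (K × K)) : ℝ :=
  (m.map fun p => max (v p.1) (v p.2)).prod

@[simp] theorem linProd_zero : linProd (0 : Multiset (K × K)) = 1 := by simp [linProd]

@[simp] theorem linProd_cons (p : K × K) (m : Multiset (K × K)) :
    linProd (p ::ₘ m) = (C p.1 * X - C p.2) * linProd m := by simp [linProd]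

@[simp] theorem maxProd_zero (v : AbsoluteValue K ℝ) : maxProd v (0 : Multiset (K × K)) = 1 := by
  simp [maxProd]

@[simp] theorem maxProd_cons (v : AbsoluteValue K ℝ) (p : K × K) (m : Multiset (K × K)) :
    maxProd v (p ::ₘ m) = max (v p.1) (v p.2) * maxProd v m := by simp [maxProd]

theorem maxProd_nonneg (v : AbsoluteValue K ℝ) (m : Multiset (K × K)) : 0 ≤ maxProd v m := by
  induction m using Multiset.induction with
  | empty => simp
  | cons p m ih =>
    rw [maxProd_cons]
    exact mul_nonneg (le_max_of_le_left (v.nonneg _)) ih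

theorem natDegree_linProd_le (m : Multiset (K × K)) : (linProd m).natDegree ≤ Multiset.card m := by
  induction m using Multiset.induction with
  | empty => simp
  | cons p m ih =>
    rw [linProd_cons, Multiset.card_cons]
    refine natDegree_mul_le.trans ?_
    have h1 : (C p.1 * X - C p.2 : K[X]).natDegree ≤ 1 := by
      refine (natDegree_sub_le _ _).trans (max_le ?_ ?_)
      · exact (natDegree_C_mul_le _ _).trans natDegree_X_le
      · simp
    omega

theorem eval_linProd (a : K) (m : Multiset (K × K)) :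
    (linProd m).eval a = (m.map fun p => p.1 * a - p.2).prod := by
  induction m using Multiset.induction with
  | empty => simp
  | cons p m ih => simp [ih]

/-! ### The trivial direction -/

/-- The coefficients of `κ ∏ (α X - β)` are bounded by `|κ| ∏ max |α| |β|`. -/
theorem abv_coeff_linProd_le (v : AbsoluteValue K ℝ) (κ : K) (m : Multiset (K × K)) (j : ℕ) :
    v ((C κ * linProd m).coeff j) ≤ kap v ^ Multiset.card m * (v κ * maxProd v m) := by
  induction m using Multiset.induction generalizing j with
  | empty =>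
    simp only [linProd_zero, mul_one, Multiset.card_zero, pow_zero, maxProd_zero, one_mul]
    rw [coeff_C]
    split_ifs
    · exact le_rfl
    · simp
  | cons p m ih =>
    set Q : K[X] := C κ * linProd m with hQ
    have hmul : C κ * linProd (p ::ₘ m) = C p.1 * (X * Q) - C p.2 * Q := by
      rw [linProd_cons, hQ]; ring
    set E : ℝ := kap v ^ Multiset.card m * (v κ * maxProd v m) with hE
    have hE0 : 0 ≤ E :=
      mul_nonneg (pow_nonneg (kap_pos v).le _) (mul_nonneg (v.nonneg _) (maxProd_nonneg v m))
    have hXQ : v ((X * Q).coeff j) ≤ E := by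
      rcases j with _ | j
      · rw [coeff_X_mul_zero, map_zero]; exact hE0
      · rw [coeff_X_mul]; exact ih j
    have hmx0 : 0 ≤ max (v p.1) (v p.2) := le_max_of_le_left (v.nonneg _)
    rw [hmul, coeff_sub, coeff_C_mul, coeff_C_mul, Multiset.card_cons, maxProd_cons]
    calc v (p.1 * (X * Q).coeff j - p.2 * Q.coeff j)
        ≤ kap v * max (v (p.1 * (X * Q).coeff j)) (v (p.2 * Q.coeff j)) := abv_sub_le v _ _
      _ ≤ kap v * (max (v p.1) (v p.2) * E) := by
          refine mul_le_mul_of_nonneg_left (max_le ?_ ?_) (kap_pos v).le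
          · rw [v.map_mul]
            exact mul_le_mul (le_max_left _ _) hXQ (v.nonneg _) hmx0
          · rw [v.map_mul]
            exact mul_le_mul (le_max_right _ _) (ih j) (v.nonneg _) hmx0
      _ = kap v ^ (Multiset.card m + 1) * (v κ * (max (v p.1) (v p.2) * maxProd v m)) := by
          rw [hE]; ring

/-! ### Two nodes control a linear form -/

/-- A linear form `α X - β` is controlled by its values at two distinct nodes. -/
theorem max_le_of_two_nodes (v : AbsoluteValue K ℝ) {a a' : K} (h : a ≠ a') (α β : K) :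
    max (v α) (v β) ≤ kap v * v (a - a')⁻¹ * max 1 (max (v a) (v a')) *
      max (v (α * a - β)) (v (α * a' - β)) := by
  have hd : a - a' ≠ 0 := sub_ne_zero.mpr h
  set L := α * a - β with hL
  set L' := α * a' - β with hL'
  set mx := max (v L) (v L') with hmx
  have hmx0 : 0 ≤ mx := le_max_of_le_left (v.nonneg _)
  have hk := kap_pos v
  have hinv0 : 0 ≤ v (a - a')⁻¹ := v.nonneg _
  have hA : (1 : ℝ) ≤ max 1 (max (v a) (v a')) := le_max_left _ _
  have e1 : α = (L - L') * (a - a')⁻¹ := by
    rw [hL, hL']; field_simp; ring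
  have e2 : β = (a' * L - a * L') * (a - a')⁻¹ := by
    rw [hL, hL']; field_simp; ring
  have h1 : v α ≤ kap v * v (a - a')⁻¹ * max 1 (max (v a) (v a')) * mx := by
    calc v α = v (L - L') * v (a - a')⁻¹ := by rw [← v.map_mul, ← e1]
      _ ≤ (kap v * mx) * v (a - a')⁻¹ :=
          mul_le_mul_of_nonneg_right (abv_sub_le v _ _) hinv0
      _ = kap v * v (a - a')⁻¹ * 1 * mx := by ring
      _ ≤ kap v * v (a - a')⁻¹ * max 1 (max (v a) (v a')) * mx := by
          have : 0 ≤ kap v * v (a - a')⁻¹ := mul_nonneg hk.le hinv0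
          gcongr
  have h2 : v β ≤ kap v * v (a - a')⁻¹ * max 1 (max (v a) (v a')) * mx := by
    have h3 : v (a' * L) ≤ max 1 (max (v a) (v a')) * mx := by
      rw [v.map_mul]
      exact mul_le_mul ((le_max_right _ _).trans (le_max_right _ _)) (le_max_left _ _)
        (v.nonneg _) (le_trans zero_le_one hA)
    have h4 : v (a * L') ≤ max 1 (max (v a) (v a')) * mx := by
      rw [v.map_mul]
      exact mul_le_mul ((le_max_left _ _).trans (le_max_right _ _)) (le_max_right _ _)
        (v.nonneg _) (le_trans zero_le_one hA)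
    calc v β = v (a' * L - a * L') * v (a - a')⁻¹ := by rw [← v.map_mul, ← e2]
      _ ≤ (kap v * (max 1 (max (v a) (v a')) * mx)) * v (a - a')⁻¹ :=
          mul_le_mul_of_nonneg_right ((abv_sub_le v _ _).trans
            (mul_le_mul_of_nonneg_left (max_le h3 h4) hk.le)) hinv0
      _ = kap v * v (a - a')⁻¹ * max 1 (max (v a) (v a')) * mx := by ring
  exact max_le h1 h2

open Classical in
/-- The constants attached to a set of nodes: the nodes and the inverses of their differences. -/
noncomputable def nodeSet (T : Finset K) : Finset K :=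
  T ∪ (T ×ˢ T).image fun q => (q.1 - q.2)⁻¹

theorem mem_nodeSet_left {T : Finset K} {a : K} (ha : a ∈ T) : a ∈ nodeSet T := by
  classical
  exact Finset.mem_union_left _ ha

theorem mem_nodeSet_inv {T : Finset K} {a a' : K} (ha : a ∈ T) (ha' : a' ∈ T) :
    (a - a')⁻¹ ∈ nodeSet T := by
  classical
  exact Finset.mem_union_right _
    (Finset.mem_image.mpr ⟨(a, a'), Finset.mem_product.mpr ⟨ha, ha'⟩, rfl⟩)

/-- The two-node bound with a tame constant. -/
theorem max_le_of_two_nodes_tame (v : AbsoluteValue K ℝ) (T : Finset K) {a a' : K} (ha : a ∈ T)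
    (ha' : a' ∈ T) (h : a ≠ a') (α β : K) :
    max (v α) (v β) ≤ (kap v * Hgt (nodeSet T) v) ^ 2 *
      max (v (α * a - β)) (v (α * a' - β)) := by
  have h0 := max_le_of_two_nodes v h α β
  have hH := one_le_Hgt (nodeSet T) v
  have hk := one_le_kap v
  have h1 : v (a - a')⁻¹ ≤ Hgt (nodeSet T) v := abv_le_Hgt (mem_nodeSet_inv ha ha') v
  have h2 : max 1 (max (v a) (v a')) ≤ Hgt (nodeSet T) v :=
    max_le hH (max_le (abv_le_Hgt (mem_nodeSet_left ha) v) (abv_le_Hgt (mem_nodeSet_left ha') v))
  have hmx0 : 0 ≤ max (v (α * a - β)) (v (α * a' - β)) := le_max_of_le_left (v.nonneg _)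
  refine h0.trans (mul_le_mul_of_nonneg_right ?_ hmx0)
  calc kap v * v (a - a')⁻¹ * max 1 (max (v a) (v a'))
      ≤ kap v * Hgt (nodeSet T) v * Hgt (nodeSet T) v := by
        have := kap_pos v
        have h3 : 0 ≤ v (a - a')⁻¹ := v.nonneg _
        gcongr
    _ ≤ (kap v * Hgt (nodeSet T) v) ^ 2 := by
        have h4 : 0 ≤ Hgt (nodeSet T) v := le_trans zero_le_one hH
        nlinarith [mul_nonneg h4 h4, mul_nonneg (mul_nonneg h4 h4) (sub_nonneg.mpr hk),
          kap_pos v]

/-! ### One good node for all the factors -/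

/-- **One good node.**  Among more than `#m` nodes there is one at which every linear factor
`α X - β` of `m` is (tamely) as large as its coefficients. -/
theorem exists_good_node (v : AbsoluteValue K ℝ) (T : Finset K) (m : Multiset (K × K))
    (hT : Multiset.card m < T.card) :
    ∃ a ∈ T, ∀ p ∈ m, max (v p.1) (v p.2) ≤
      (kap v * Hgt (nodeSet T) v) ^ 2 * v (p.1 * a - p.2) := by
  classical
  set c : ℝ := (kap v * Hgt (nodeSet T) v) ^ 2 with hc
  by_contra hcon
  push Not at hcon
  set Bad : K × K → Finset K := fun p => T.filter fun a => c * v (p.1 * a - p.2) <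
    max (v p.1) (v p.2) with hBad
  have hcov : T ⊆ m.toFinset.biUnion Bad := by
    intro a ha
    obtain ⟨p, hp, hlt⟩ := hcon a ha
    exact Finset.mem_biUnion.2 ⟨p, Multiset.mem_toFinset.2 hp, Finset.mem_filter.2 ⟨ha, hlt⟩⟩
  have hone : ∀ p, (Bad p).card ≤ 1 := by
    intro p
    rw [Finset.card_le_one]
    intro a ha a' ha'
    by_contra hne
    obtain ⟨haT, h1⟩ := Finset.mem_filter.1 ha
    obtain ⟨ha'T, h2⟩ := Finset.mem_filter.1 ha'
    have h3 := max_le_of_two_nodes_tame v T haT ha'T hne p.1 p.2
    have hc0 : 0 ≤ c := by rw [hc]; positivity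
    have h4 : c * max (v (p.1 * a - p.2)) (v (p.1 * a' - p.2)) < max (v p.1) (v p.2) := by
      rcases le_total (v (p.1 * a - p.2)) (v (p.1 * a' - p.2)) with h5 | h5
      · rw [max_eq_right h5]; exact h2
      · rw [max_eq_left h5]; exact h1
    exact absurd h3 (not_le.mpr h4)
  have h1 : T.card ≤ Multiset.card m :=
    calc T.card ≤ (m.toFinset.biUnion Bad).card := Finset.card_le_card hcov
      _ ≤ ∑ p ∈ m.toFinset, (Bad p).card := Finset.card_biUnion_le
      _ ≤ ∑ _p ∈ m.toFinset, 1 := Finset.sum_le_sum fun p _ => hone p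
      _ = m.toFinset.card := by simp
      _ ≤ Multiset.card m := Multiset.toFinset_card_le m
  exact absurd hT (not_lt.2 h1)

/-! ### The main inequality -/

/-- `|κ| ∏ max |α| |β|` is bounded by the coefficients of `κ ∏ (α X - β)`, for a given set of
more than `M ≥ #m` nodes. -/
theorem maxProd_le_of_nodes (v : AbsoluteValue K ℝ) (T : Finset K) (M : ℕ) (hT : M < T.card)
    (κ : K) (m : Multiset (K × K)) (hm : Multiset.card m ≤ M) {B : ℝ}
    (hB : ∀ j, v ((C κ * linProd m).coeff j) ≤ B) :
    v κ * maxProd v m ≤ (kap v * Hgt (nodeSet T) v) ^ (3 * M + 1) * B := by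
  set c : ℝ := kap v * Hgt (nodeSet T) v with hc
  have hk := one_le_kap v
  have hH := one_le_Hgt (nodeSet T) v
  have hc1 : 1 ≤ c := by rw [hc]; exact one_le_mul_of_one_le_of_one_le hk hH
  have hc0 : 0 ≤ c := le_trans zero_le_one hc1
  have hB0 : 0 ≤ B := le_trans (v.nonneg _) (hB 0)
  obtain ⟨a, haT, hgood⟩ := exists_good_node v T m (lt_of_le_of_lt hm hT)
  -- the product of the maxima is bounded by the value at the good node
  have h1 : maxProd v m ≤ (c ^ 2) ^ Multiset.card m * v ((linProd m).eval a) := by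
    rw [eval_linProd, map_multiset_prod, Multiset.map_map]
    have h2 : maxProd v m ≤ (m.map fun p => c ^ 2 * v (p.1 * a - p.2)).prod :=
      Multiset.prod_map_le_prod_map₀ _ _ (fun p _ => le_max_of_le_left (v.nonneg _)) hgood
    refine h2.trans (le_of_eq ?_)
    rw [Multiset.prod_map_mul, Multiset.map_const', Multiset.prod_replicate]
    rfl
  -- the value at the node is bounded by the coefficients
  have hdeg : (C κ * linProd m).natDegree < M + 1 :=
    Nat.lt_succ_of_le (((natDegree_C_mul_le _ _).trans (natDegree_linProd_le m)).trans hm)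
  have hA : max 1 (v a) ≤ Hgt (nodeSet T) v :=
    max_le hH (abv_le_Hgt (mem_nodeSet_left haT) v)
  have h3 : v κ * v ((linProd m).eval a) ≤ kap v ^ (M + 1) * (B * Hgt (nodeSet T) v ^ M) := by
    rw [← v.map_mul, ← eval_C (a := κ) (x := a), ← eval_mul, eval_eq_sum_range' hdeg]
    have := abv_sum_le v (Finset.range (M + 1)) (fun i => (C κ * linProd m).coeff i * a ^ i)
      (B := B * Hgt (nodeSet T) v ^ M) (mul_nonneg hB0 (pow_nonneg (le_trans zero_le_one hH) _))
      (fun i hi => by
        rw [v.map_mul, v.map_pow]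
        refine mul_le_mul (hB i) ?_ (pow_nonneg (v.nonneg _) _) hB0
        calc v a ^ i ≤ max 1 (v a) ^ i := pow_le_pow_left₀ (v.nonneg _) (le_max_right _ _) _
          _ ≤ max 1 (v a) ^ M :=
              pow_le_pow_right₀ (le_max_left _ _) (Nat.lt_succ_iff.mp (Finset.mem_range.mp hi))
          _ ≤ Hgt (nodeSet T) v ^ M :=
              pow_le_pow_left₀ (le_trans zero_le_one (le_max_left _ _)) hA _)
    simpa using this
  have hpow : (c ^ 2) ^ Multiset.card m ≤ c ^ (2 * M) := by
    rw [← pow_mul]
    exact pow_le_pow_right₀ hc1 (Nat.mul_le_mul_left 2 hm)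
  have h4 : kap v ^ (M + 1) * Hgt (nodeSet T) v ^ M ≤ c ^ (M + 1) := by
    rw [hc, mul_pow]
    have : Hgt (nodeSet T) v ^ M ≤ Hgt (nodeSet T) v ^ (M + 1) :=
      pow_le_pow_right₀ hH (Nat.le_succ M)
    have hk0 : 0 ≤ kap v ^ (M + 1) := pow_nonneg (kap_pos v).le _
    gcongr
  calc v κ * maxProd v m
      ≤ v κ * ((c ^ 2) ^ Multiset.card m * v ((linProd m).eval a)) :=
        mul_le_mul_of_nonneg_left h1 (v.nonneg _)
    _ = (c ^ 2) ^ Multiset.card m * (v κ * v ((linProd m).eval a)) := by ring
    _ ≤ c ^ (2 * M) * (kap v ^ (M + 1) * (B * Hgt (nodeSet T) v ^ M)) :=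
        mul_le_mul hpow h3 (mul_nonneg (v.nonneg _) (v.nonneg _)) (pow_nonneg hc0 _)
    _ = c ^ (2 * M) * (kap v ^ (M + 1) * Hgt (nodeSet T) v ^ M) * B := by ring
    _ ≤ c ^ (2 * M) * c ^ (M + 1) * B := by
        have := pow_nonneg hc0 (2 * M)
        gcongr
    _ = c ^ (3 * M + 1) * B := by rw [← pow_add]; congr 2; ring

/-- **(γ3), the nontrivial direction, with tame constants.**  Over an infinite field there are a
finite set `Λ` and an exponent `e`, depending only on `M`, such that for every absolute value `v`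
and every product `κ ∏ (α X - β)` of at most `M` linear factors:
`|κ| ∏ max |α| |β| ≤ (kap v * Hgt Λ v) ^ e * max_j |coeff_j|`. -/
theorem exists_maxProd_le [Infinite K] (M : ℕ) :
    ∃ (Λ : Finset K) (e : ℕ), ∀ (v : AbsoluteValue K ℝ) (κ : K) (m : Multiset (K × K)),
      Multiset.card m ≤ M → ∀ B : ℝ, (∀ j, v ((C κ * linProd m).coeff j) ≤ B) →
        v κ * maxProd v m ≤ (kap v * Hgt Λ v) ^ e * B := by
  obtain ⟨T, hT⟩ := Infinite.exists_subset_card_eq K (M + 1)
  refine ⟨nodeSet T, 3 * M + 1, fun v κ m hm B hB => ?_⟩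
  exact maxProd_le_of_nodes v T M (by rw [hT]; exact Nat.lt_succ_self M) κ m hm hB

end Fermat.Agent.MW.Adj.Binary
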