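/-
MW / route γ — the abstract fibre Lipschitz bound on a bounded chart, in "norm over `K[X]`" form
(Mathlib + helper33's `MW/HtM` tame calculus).

`A` is a commutative `K`-algebra which is finite free over `K[X]` (`X ↦ t`), with points
`A →ₐ[K] K`, bounded regions `B v` and a finite family `x` of coordinates.  If `L` is the fibre of
`t` over `τ` as a multiset of points, in the sense of the *fibre formula*
  `(Algebra.norm K[X] y).eval τ = ∏_{S ∈ L} S y`   for all `y : A`,
then  `∏_{S ∈ L} cdist_v(R, S) ≤ C_v · |t(R) - τ|_v`  with a tame constant `C`.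

Proof: for a linear form `ℓ = ∑ c_i x_i` let `P ∈ K[X][T]` be the characteristic polynomial of `ℓ`.
Cayley–Hamilton gives `P(ℓ(R), t(R)) = 0`, the fibre formula gives
`P(s, τ) = ∏_{S ∈ L} (s - ℓ(S))`, hence `∏_{S ∈ L} (ℓ(R) - ℓ(S)) = P(ℓ(R), τ) - P(ℓ(R), t(R))` is
tamely `O(|τ - t(R)|)`; finitely many Vandermonde forms suffice to dominate all coordinate
differences at once (`HtM.exists_good_node`).
-/
import Mathlib
import Fermat.Agent.MW.HtM.FibreLip

set_option autoImplicit false

namespace Fermat.Agent.MW.Adj.Lip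

open Polynomial Fermat.Agent.MW.HtM

variable {K : Type*} [Field K] {V : Type*}

/-- **Nodes.** Finitely many linear forms `c j` on `K^ι` such that, for every place and every
multiset of at most `N` vectors, one of the forms is simultaneously non-small on all of them. -/
theorem exists_nodes [Infinite K] (F : AbsFamily K V) (ι : Type*) [Fintype ι] (N : ℕ) :
    ∃ (J : ℕ) (c : Fin J → ι → K) (E : V → ℝ), Tame E ∧
      ∀ (v : V) (L : Multiset (ι → K)), L.card ≤ N →
        ∃ j, ∀ d ∈ L, (⨆ i, F.abv v (d i)) ≤ E v * F.abv v (∑ i, c j i * d i) := by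
  classical
  set n := Fintype.card ι with hn
  let e : ι ≃ Fin n := Fintype.equivFin ι
  set J := N * (n - 1) + 1 with hJ
  let lam : Fin J → K := fun j => Infinite.natEmbedding K (j : ℕ)
  have hlam : Function.Injective lam := fun a b h =>
    Fin.ext ((Infinite.natEmbedding K).injective h)
  obtain ⟨E, hE, hnode⟩ := exists_good_node F (n := n) (m := N) lam hlam
    (by rw [Fintype.card_fin, hJ]; omega)
  refine ⟨J, fun j i => lam j ^ (e i : ℕ), E, hE, fun v L hL => ?_⟩
  obtain ⟨j, hj⟩ := hnode v (L.map fun d => d ∘ e.symm) (by rwa [Multiset.card_map])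
  refine ⟨j, fun d hd => ?_⟩
  have hsum : ∑ i, lam j ^ (e i : ℕ) * d i
      = ∑ i : Fin n, lam j ^ (i : ℕ) * (d ∘ e.symm) i := by
    rw [← e.sum_comp]
    simp
  rw [hsum]
  refine Real.iSup_le (fun i => ?_) (mul_nonneg (hE.nonneg v) ((F.abv v).nonneg _))
  have := hj (d ∘ e.symm) (Multiset.mem_map_of_mem _ hd) (e i)
  simpa using this

section CH

variable {A : Type*} [CommRing A] [Algebra K A] [Algebra K[X] A] [IsScalarTower K K[X] A]

/-- A point of `A` restricted to `K[X]` is evaluation at the value of `X`. -/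
theorem point_algebraMap (R : A →ₐ[K] K) (p : K[X]) :
    R (algebraMap K[X] A p) = p.eval (R (algebraMap K[X] A X)) := by
  have h : (R.toRingHom.comp (algebraMap K[X] A)) =
      (Polynomial.evalRingHom (R (algebraMap K[X] A X))) := by
    apply Polynomial.ringHom_ext
    · intro a
      simp only [RingHom.coe_comp, Function.comp_apply, AlgHom.toRingHom_eq_coe, RingHom.coe_coe,
        coe_evalRingHom, eval_C]
      rw [← Polynomial.algebraMap_eq, ← IsScalarTower.algebraMap_apply K K[X] A, AlgHom.commutes]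
      rfl
    · simp
  exact congrArg (fun f => f p) h

variable [Module.Free K[X] A] [Module.Finite K[X] A]

/-- The characteristic polynomial of `y` over `K[X]` (in the chosen basis). -/
noncomputable def chp (y : A) : K[X][X] :=
  (Algebra.leftMulMatrix (Module.Free.chooseBasis K[X] A) y).charpoly

/-- Two-variable evaluation of `P ∈ K[X][T]` at `T = s`, `X = w`. -/
noncomputable def evTwo (P : K[X][X]) (s w : K) : K := (P.map (evalRingHom w)).eval s

theorem evTwo_eq (P : K[X][X]) (s w : K) : evTwo P s w = (P.eval (C s)).eval w := by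
  unfold evTwo
  rw [Polynomial.eval_map]
  have := Polynomial.hom_eval₂ P (RingHom.id K[X]) (evalRingHom w) (C s)
  simp only [RingHom.comp_id, coe_evalRingHom, eval_C] at this
  rw [← this]
  simp [Polynomial.eval₂_id]

/-- Cayley–Hamilton at a point. -/
theorem evTwo_chp_point (y : A) (R : A →ₐ[K] K) :
    evTwo (chp (K := K) y) (R y) (R (algebraMap K[X] A X)) = 0 := by
  set b := Module.Free.chooseBasis K[X] A
  have h1 : aeval y (chp (K := K) y) = 0 := by
    have h2 := Matrix.aeval_self_charpoly (Algebra.leftMulMatrix b y)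
    rw [Polynomial.aeval_algHom_apply] at h2
    exact Algebra.leftMulMatrix_injective b (by rw [map_zero]; exact h2)
  have h3 : R (aeval y (chp (K := K) y))
      = evTwo (chp (K := K) y) (R y) (R (algebraMap K[X] A X)) := by
    unfold evTwo
    rw [Polynomial.eval_map, Polynomial.aeval_def, Polynomial.eval₂_eq_sum_range,
      Polynomial.eval₂_eq_sum_range, map_sum]
    refine Finset.sum_congr rfl fun k _ => ?_
    rw [map_mul, map_pow, point_algebraMap]
    rfl
  rw [← h3, h1, map_zero]

omit [Algebra K A] [IsScalarTower K K[X] A] in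
/-- The norm of `s - y` is the characteristic polynomial at `s`. -/
theorem norm_sub_eval (y : A) (s w : K) :
    (Algebra.norm K[X] (algebraMap K[X] A (C s) - y)).eval w = evTwo (chp (K := K) y) s w := by
  set b := Module.Free.chooseBasis K[X] A
  rw [evTwo_eq, Algebra.norm_eq_matrix_det b, map_sub, chp, Matrix.eval_charpoly]
  congr 2
  rw [AlgHom.commutes]
  rfl

end CH

/-- A fixed polynomial is tamely Lipschitz on tamely bounded discs. -/
theorem poly_lip (F : AbsFamily K V) (p : K[X]) {C₂ : V → ℝ} (h2 : Tame C₂) :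
    ∃ D : V → ℝ, Tame D ∧ ∀ v (τ w : K), F.abv v τ ≤ C₂ v → F.abv v w ≤ C₂ v →
      F.abv v (p.eval τ - p.eval w) ≤ D v * F.abv v (τ - w) := by
  classical
  set B₀ : V → Set (K[X] →ₐ[K] K) := fun v => {pt | F.abv v (pt X) ≤ C₂ v} with hB₀
  set x : Unit → K[X] := fun _ => X with hx
  have hadj : Algebra.adjoin K (Set.range x) = ⊤ := by
    rw [hx, Set.range_const]
    exact Polynomial.adjoin_X
  have hB : ∀ a : K[X], TBdd F B₀ a := by
    refine tbdd_of_adjoin F B₀ (Set.range x) hadj ?_
    rintro _ ⟨i, rfl⟩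
    exact ⟨C₂, h2, fun v S hS => hS⟩
  obtain ⟨D, hD, h⟩ := tlip_of_adjoin F B₀ x hadj hB p
  refine ⟨D, hD, fun v τ w hτ hw => ?_⟩
  have h1 := h v (Polynomial.aeval τ) (by simpa [hB₀] using hτ) (Polynomial.aeval w)
    (by simpa [hB₀] using hw)
  have h3 : cdist F x v (Polynomial.aeval w) (Polynomial.aeval τ) = F.abv v (τ - w) := by
    unfold cdist
    simp [hx]
  rw [h3] at h1
  simpa [Polynomial.coe_aeval_eq_eval] using h1

/-- A fixed two-variable polynomial is tamely Lipschitz in its second variable. -/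
theorem evTwo_lip (F : AbsFamily K V) (P : K[X][X]) {C₁ C₂ : V → ℝ} (h1 : Tame C₁)
    (h2 : Tame C₂) :
    ∃ D : V → ℝ, Tame D ∧ ∀ v (s τ w : K), F.abv v s ≤ C₁ v → F.abv v τ ≤ C₂ v →
      F.abv v w ≤ C₂ v → F.abv v (evTwo P s τ - evTwo P s w) ≤ D v * F.abv v (τ - w) := by
  classical
  choose D hD hDb using fun k : ℕ => poly_lip F (P.coeff k) h2
  set n := P.natDegree + 1 with hn
  have hT : ∀ k ∈ Finset.range n, Tame (fun v => D k v * C₁ v ^ k) :=
    fun k _ => (hD k).mul (h1.pow k)
  refine ⟨fun v => F.archN n v * ∏ k ∈ Finset.range n, D k v * C₁ v ^ k,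
    (F.tame_archN n).mul (Tame.prod _ _ hT), fun v s τ w hs hτ hw => ?_⟩
  have e : evTwo P s τ - evTwo P s w
      = ∑ k ∈ Finset.range n, ((P.coeff k).eval τ - (P.coeff k).eval w) * s ^ k := by
    unfold evTwo
    rw [Polynomial.eval_map, Polynomial.eval_map, Polynomial.eval₂_eq_sum_range,
      Polynomial.eval₂_eq_sum_range, ← Finset.sum_sub_distrib]
    refine Finset.sum_congr rfl fun k _ => ?_
    simp only [coe_evalRingHom]
    ring
  rw [e, mul_assoc]
  have hc := F.abv_sum_le v (Finset.range n)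
    (fun k => ((P.coeff k).eval τ - (P.coeff k).eval w) * s ^ k)
    (M := (∏ k ∈ Finset.range n, D k v * C₁ v ^ k) * F.abv v (τ - w))
    (mul_nonneg ((Tame.prod _ _ hT).nonneg v) ((F.abv v).nonneg _)) ?_
  · simpa [Finset.card_range] using hc
  · intro k hk
    rw [(F.abv v).map_mul, (F.abv v).map_pow]
    calc F.abv v ((P.coeff k).eval τ - (P.coeff k).eval w) * F.abv v s ^ k
        ≤ (D k v * F.abv v (τ - w)) * C₁ v ^ k := by
          refine mul_le_mul (hDb k v τ w hτ hw) (pow_le_pow_left₀ ((F.abv v).nonneg _) hs k)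
            (pow_nonneg ((F.abv v).nonneg _) _)
            (mul_nonneg ((hD k).nonneg v) ((F.abv v).nonneg _))
      _ = (D k v * C₁ v ^ k) * F.abv v (τ - w) := by ring
      _ ≤ (∏ k ∈ Finset.range n, D k v * C₁ v ^ k) * F.abv v (τ - w) := by
          refine mul_le_mul_of_nonneg_right ?_ ((F.abv v).nonneg _)
          exact Tame.le_prod (Finset.range n) (fun k v => D k v * C₁ v ^ k) hT hk v

/-- In an infinite field, `c ^ m = c ^ k` for all `c` forces `m = k`. -/
theorem pow_eq_pow_all [Infinite K] {m k : ℕ} (h : ∀ c : K, c ^ m = c ^ k) : m = k := by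
  have h1 : (X ^ m : K[X]) = X ^ k := Polynomial.funext fun c => by simpa using h c
  have := congrArg Polynomial.natDegree h1
  simpa using this

/-- **Abstract fibre Lipschitz bound on a bounded chart** (multiset form): if `L` is the fibre of
`t = algebraMap X` over `τ` in the sense of the fibre formula, then
`∏_{S ∈ L} cdist_v(R, S) ≤ C_v · |t(R) - τ|_v`. -/
theorem fibre_lip_norm [Infinite K] (F : AbsFamily K V) {A : Type*} [CommRing A] [Algebra K A]
    [Algebra K[X] A] [IsScalarTower K K[X] A] [Module.Free K[X] A] [Module.Finite K[X] A]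
    (B : V → Set (A →ₐ[K] K)) {ι : Type*} [Fintype ι] (x : ι → A)
    (hxB : ∀ i, TBdd F B (x i)) (htB : TBdd F B (algebraMap K[X] A X)) :
    ∃ C : V → ℝ, Tame C ∧ ∀ v, ∀ R ∈ B v, ∀ (τ : K) (L : Multiset (A →ₐ[K] K)),
      L ≠ 0 → (∀ S ∈ L, S ∈ B v ∧ S (algebraMap K[X] A X) = τ) →
      (∀ y : A, (Algebra.norm K[X] y).eval τ = (L.map fun S => S y).prod) →
      (L.map fun S => cdist F x v R S).prod ≤ C v * F.abv v (R (algebraMap K[X] A X) - τ) := by
  classical
  set t : A := algebraMap K[X] A X with ht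
  set m := Module.finrank K[X] A with hm
  obtain ⟨J, c, E, hE, hnodes⟩ := exists_nodes F ι m
  -- the linear forms
  set ℓ : Fin J → A := fun j => ∑ i, algebraMap K A (c j i) * x i with hℓ
  have hℓB : ∀ j, TBdd F B (ℓ j) := by
    intro j
    have : ℓ j ∈ tbddSubalgebra F B :=
      Subalgebra.sum_mem _ fun i _ =>
        Subalgebra.mul_mem _ (Subalgebra.algebraMap_mem _ _) (hxB i)
    exact this
  choose Cℓ hCℓ hℓb using hℓB
  obtain ⟨Ct, hCt, htb⟩ := htB
  choose D hD hDb using fun j : Fin J => evTwo_lip F (chp (K := K) (ℓ j)) (hCℓ j) hCt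
  have hDT : ∀ j ∈ (Finset.univ : Finset (Fin J)), Tame (D j) := fun j _ => hD j
  refine ⟨fun v => E v ^ m * ∏ j, D j v, (hE.pow m).mul (Tame.prod _ _ hDT),
    fun v R hR τ L hL0 hL hnorm => ?_⟩
  -- the cardinality of the fibre
  have hcard : L.card = m := by
    refine (pow_eq_pow_all (K := K) fun c => ?_).symm
    have h1 := hnorm (algebraMap K[X] A (C c))
    rw [Algebra.norm_algebraMap, eval_pow, eval_C] at h1
    rw [h1]
    have h2 : ∀ S ∈ L, S (algebraMap K[X] A (C c)) = c := by
      intro S _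
      rw [point_algebraMap, eval_C]
    rw [Multiset.map_congr rfl h2, Multiset.map_const', Multiset.prod_replicate]
  -- the bound for `τ`
  obtain ⟨S₀, hS₀⟩ := Multiset.exists_mem_of_ne_zero hL0
  have hτ : F.abv v τ ≤ Ct v := by
    rw [← (hL S₀ hS₀).2]
    exact htb v S₀ (hL S₀ hS₀).1
  have hRt : F.abv v (R t) ≤ Ct v := htb v R hR
  -- a good node
  obtain ⟨j, hj⟩ := hnodes v (L.map fun S => fun i => S (x i) - R (x i))
    (by rw [Multiset.card_map, hcard])
  have hdiff : ∀ S : A →ₐ[K] K, ∑ i, c j i * (S (x i) - R (x i)) = S (ℓ j) - R (ℓ j) := by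
    intro S
    simp only [hℓ, map_sum, map_mul, AlgHom.commutes, Algebra.algebraMap_self_apply,
      ← Finset.sum_sub_distrib]
    refine Finset.sum_congr rfl fun i _ => ?_
    ring
  have hcd : ∀ S ∈ L, cdist F x v R S ≤ E v * F.abv v (R (ℓ j) - S (ℓ j)) := by
    intro S hS
    have := hj (fun i => S (x i) - R (x i)) (Multiset.mem_map.2 ⟨S, hS, rfl⟩)
    rw [hdiff S, (F.abv v).map_sub] at this
    exact this
  -- the product over the fibre
  have hprod : (L.map fun S => R (ℓ j) - S (ℓ j)).prod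
      = evTwo (chp (K := K) (ℓ j)) (R (ℓ j)) τ - evTwo (chp (K := K) (ℓ j)) (R (ℓ j)) (R t) := by
    rw [evTwo_chp_point (ℓ j) R, sub_zero, ← norm_sub_eval, hnorm]
    refine congrArg Multiset.prod (Multiset.map_congr rfl fun S _ => ?_)
    rw [map_sub, point_algebraMap, eval_C]
  have hb := hDb j v (R (ℓ j)) τ (R t) (hℓb j v R hR) hτ hRt
  rw [← hprod] at hb
  calc (L.map fun S => cdist F x v R S).prod
      ≤ (L.map fun S => E v * F.abv v (R (ℓ j) - S (ℓ j))).prod := by
        refine Multiset.prod_map_le_prod_map₀ _ _ (fun S _ => cdist_nonneg F x v R S) hcd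
    _ = E v ^ m * F.abv v ((L.map fun S => R (ℓ j) - S (ℓ j)).prod) := by
        rw [Multiset.prod_map_mul, Multiset.map_const', Multiset.prod_replicate, hcard]
        congr 1
        rw [← Multiset.prod_hom' L (F.abv v) (fun S => R (ℓ j) - S (ℓ j))]
    _ ≤ E v ^ m * (D j v * F.abv v (τ - R t)) :=
        mul_le_mul_of_nonneg_left hb (pow_nonneg (hE.nonneg v) _)
    _ ≤ E v ^ m * ((∏ j, D j v) * F.abv v (τ - R t)) := by
        refine mul_le_mul_of_nonneg_left ?_ (pow_nonneg (hE.nonneg v) _)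
        refine mul_le_mul_of_nonneg_right ?_ ((F.abv v).nonneg _)
        exact Tame.le_prod Finset.univ D hDT (Finset.mem_univ j) v
    _ = E v ^ m * (∏ j, D j v) * F.abv v (R t - τ) := by
        rw [(F.abv v).map_sub τ (R t), mul_assoc]

/-- **Abstract fibre Lipschitz bound on a bounded chart** (finset-with-multiplicities form, the
shape produced by the Dedekind fibre formula): if the fibre of `t` over `τ` is the finite set `s`
of points with multiplicities `e`, then `∏_{S ∈ s} cdist_v(R, S) ^ e S ≤ C_v · |t(R) - τ|_v`. -/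
theorem fibre_lip_norm_finset [Infinite K] (F : AbsFamily K V) {A : Type*} [CommRing A]
    [Algebra K A] [Algebra K[X] A] [IsScalarTower K K[X] A] [Module.Free K[X] A]
    [Module.Finite K[X] A] (B : V → Set (A →ₐ[K] K)) {ι : Type*} [Fintype ι] (x : ι → A)
    (hxB : ∀ i, TBdd F B (x i)) (htB : TBdd F B (algebraMap K[X] A X)) :
    ∃ C : V → ℝ, Tame C ∧ ∀ v, ∀ R ∈ B v, ∀ (τ : K) (s : Finset (A →ₐ[K] K))
      (e : (A →ₐ[K] K) → ℕ), (∃ S ∈ s, 0 < e S) →
      (∀ S ∈ s, S ∈ B v ∧ S (algebraMap K[X] A X) = τ) →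
      (∀ y : A, (Algebra.norm K[X] y).eval τ = ∏ S ∈ s, S y ^ e S) →
      ∏ S ∈ s, cdist F x v R S ^ e S ≤ C v * F.abv v (R (algebraMap K[X] A X) - τ) := by
  classical
  obtain ⟨C, hC, h⟩ := fibre_lip_norm F B x hxB htB
  refine ⟨C, hC, fun v R hR τ s e hne hs hnorm => ?_⟩
  set L : Multiset (A →ₐ[K] K) := ∑ S ∈ s, Multiset.replicate (e S) S with hL
  have hmem : ∀ S, S ∈ L → S ∈ s := by
    intro S hS
    rw [hL, Multiset.mem_sum] at hS
    obtain ⟨S', hS', hS2⟩ := hS
    rw [Multiset.eq_of_mem_replicate hS2]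
    exact hS'
  have hprod : ∀ f : (A →ₐ[K] K) → K, (L.map f).prod = ∏ S ∈ s, f S ^ e S := by
    intro f
    rw [hL, ← Multiset.coe_mapAddMonoidHom, map_sum, Multiset.prod_sum]
    refine Finset.prod_congr rfl fun S _ => ?_
    rw [Multiset.coe_mapAddMonoidHom, Multiset.map_replicate, Multiset.prod_replicate]
  have hprodR : ∀ f : (A →ₐ[K] K) → ℝ, (L.map f).prod = ∏ S ∈ s, f S ^ e S := by
    intro f
    rw [hL, ← Multiset.coe_mapAddMonoidHom, map_sum, Multiset.prod_sum]
    refine Finset.prod_congr rfl fun S _ => ?_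
    rw [Multiset.coe_mapAddMonoidHom, Multiset.map_replicate, Multiset.prod_replicate]
  have hL0 : L ≠ 0 := by
    obtain ⟨S, hS, heS⟩ := hne
    intro h0
    have : S ∈ L := by
      rw [hL, Multiset.mem_sum]
      exact ⟨S, hS, Multiset.mem_replicate.2 ⟨heS.ne', rfl⟩⟩
    rw [h0] at this
    exact absurd this (Multiset.notMem_zero S)
  have := h v R hR τ L hL0 (fun S hS => hs S (hmem S hS)) (fun y => by rw [hnorm y, hprod])
  rwa [hprodR] at this

end Fermat.Agent.MW.Adj.Lip
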