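/-
MW / route γ — the fibre Lipschitz bound on the chart ring `Rg K t` in `pval` form
(targets (L0)/(L1) of the two-chart assembly of `LocalHt.lip`), from the *fibre formula*.

* `polyAlg t ht` : the `K[X]`-algebra structure `X ↦ t` on the chart ring
  `Rg K t = integralClosure K[t] F`; it is finite free (`polyAlg_finite`, `polyAlg_free`).
* `FibreFormula t ht` : for every `τ` the points of the chart over `τ`, with the exact power of
  their maximal ideal containing `t - τ` as multiplicity, compute `(N_{Rg/K[t]} y)(τ)`.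
* `lip_rg_of_fibre` : for `R`, `τ` in the region `|·|_v ≤ ρ_v` and `Z` the divisor of zeros of
  `t - τ`:  `∏_S d_v(S, R) ^ Z(S) ≤ C_v · |t(R) - τ|_v`  with `C` tame, where
  `d_v(S, R) = ⨆ i, |x_i(S) - x_i(R)|_v` for any finite family `x` of the chart ring.
-/
import Mathlib
import Fermat.Agent.MW.HtM.RegRing
import Fermat.Agent.MW.HtM.Local
import Fermat.Agent.MW.Adj.Lip

set_option autoImplicit false
set_option linter.style.haveILetI false

noncomputable section

namespace Fermat.Agent.MW.Adj.LipRg

open Polynomial AlgebraicCurve IntermediateField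
open Fermat.Agent.MW.HtM Fermat.Agent.MW.HtM.RegRing Fermat.Agent.Lib.FF Fermat.Agent.Lib.FF.IntP

universe uK uF

variable {K : Type uK} {F : Type uF} [Field K] [Field F] [Algebra K F]

section Structure

variable (t : F) (ht : Transcendental K t)

/-- The `K[X]`-algebra structure of the chart ring, `X ↦ t`. -/
@[reducible] def polyAlg : Algebra K[X] (Rg K t) :=
  ((algebraMap (Algebra.adjoin K {t}) (Rg K t)).comp
    (Polynomial.algEquivOfTranscendental K t ht).toRingEquiv.toRingHom).toAlgebra

theorem algEquiv_coe (p : K[X]) :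
    ((Polynomial.algEquivOfTranscendental K t ht p : Algebra.adjoin K {t}) : F) = aeval t p := by
  simp [Polynomial.algEquivOfTranscendental_apply]

theorem polyAlg_coe (p : K[X]) :
    (((polyAlg t ht).algebraMap p : Rg K t) : F) = aeval t p :=
  algEquiv_coe t ht p

theorem polyAlg_X : (polyAlg t ht).algebraMap X = xInt K t := by
  apply Subtype.ext
  rw [polyAlg_coe]
  simp

theorem polyAlg_C (c : K) : (polyAlg t ht).algebraMap (C c) = algebraMap K (Rg K t) c := by
  apply Subtype.ext
  rw [polyAlg_coe]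
  simp

theorem polyAlg_isScalarTower :
    letI := polyAlg t ht
    IsScalarTower K K[X] (Rg K t) := by
  letI := polyAlg t ht
  refine IsScalarTower.of_algebraMap_eq fun c => ?_
  rw [← polyAlg_C t ht c]
  rfl

theorem polyAlg_injective : Function.Injective (polyAlg t ht).algebraMap := by
  intro p q h
  have h1 := congrArg (fun s : Rg K t => (s : F)) h
  simp only [polyAlg_coe] at h1
  exact (transcendental_iff_injective.mp ht) h1

variable [IsAlgClosed K] [FiniteDimensional K⟮t⟯ F]

theorem polyAlg_finite :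
    letI := polyAlg t ht
    Module.Finite K[X] (Rg K t) := by
  letI := polyAlg t ht
  haveI : Module.Finite (Algebra.adjoin K {t}) (Rg K t) := finite_integralClosure t ht
  refine Module.Finite.of_equiv_equiv
    (Polynomial.algEquivOfTranscendental K t ht).toRingEquiv.symm (RingEquiv.refl (Rg K t)) ?_
  ext p
  have h1 : (Polynomial.algEquivOfTranscendental K t ht)
      ((Polynomial.algEquivOfTranscendental K t ht).symm p) = p := AlgEquiv.apply_symm_apply _ p
  show (((polyAlg t ht).algebraMap
    ((Polynomial.algEquivOfTranscendental K t ht).symm p) : Rg K t) : F) = (p : F)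
  rw [polyAlg_coe, ← algEquiv_coe t ht]
  exact congrArg (fun z : Algebra.adjoin K {t} => (z : F)) h1

theorem polyAlg_free :
    letI := polyAlg t ht
    Module.Free K[X] (Rg K t) := by
  letI := polyAlg t ht
  haveI := polyAlg_finite t ht
  haveI : Module.IsTorsionFree K[X] (Rg K t) :=
    Module.isTorsionFree_iff_algebraMap_injective.2 (polyAlg_injective t ht)
  exact Module.free_of_finite_type_torsion_free'

end Structure

section Main

variable (t : F) (ht : Transcendental K t)

/-- **The fibre formula for the chart ring of `t`**: for every `τ`, the points over `τ` with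
their multiplicities compute the values at `τ` of the norms to `K[t]`. -/
def FibreFormula : Prop :=
  letI := polyAlg t ht
  ∀ τ : K, ∃ (s : Finset (Rg K t →ₐ[K] K)) (e : (Rg K t →ₐ[K] K) → ℕ),
    (∀ S, S ∈ s ↔ S (algebraMap K[X] (Rg K t) X) = τ) ∧
    (∀ S ∈ s, 0 < e S ∧
      algebraMap K[X] (Rg K t) (X - C τ) ∈ (RingHom.ker S.toRingHom) ^ e S ∧
      algebraMap K[X] (Rg K t) (X - C τ) ∉ (RingHom.ker S.toRingHom) ^ (e S + 1)) ∧
    ∀ y : Rg K t, (Algebra.norm K[X] y).eval τ = ∏ S ∈ s, S y ^ e S

variable [IsAlgClosed K] [FiniteDimensional K⟮t⟯ F]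

/-- **The fibre Lipschitz bound on the chart of `t`, in `pval` form** (target (L0)/(L1) of the
two-chart assembly), from the fibre formula: for `R` and `τ` in the region `|·|_v ≤ ρ_v` and `Z`
the divisor of zeros of `t - τ`,
`∏_{S} d_v(S, R) ^ Z(S) ≤ C_v · |t(R) - τ|_v`, `d_v` the coordinate distance of the generators `x`. -/
theorem lip_rg_of_fibre (hfib : FibreFormula t ht) {V : Type*} (Fm : AbsFamily K V) {ρ : V → ℝ}
    (hρ : Tame ρ) {n : ℕ} (x : Fin n → Rg K t) :
    ∃ C : V → ℝ, Tame C ∧ ∀ v, ∀ R : Place K F, 0 ≤ R.ord t → Fm.abv v (pval R t) ≤ ρ v →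
      ∀ τ : K, Fm.abv v τ ≤ ρ v → ∀ Z : Place K F →₀ ℕ,
      (∀ P, 0 ≤ P.ord t → (Z P : ℤ) = P.ord (t - algebraMap K F τ)) →
      (∀ P, P.ord t < 0 → Z P = 0) →
      (Z.prod fun S k => (⨆ i, Fm.abv v (pval S (x i : F) - pval R (x i : F))) ^ k)
        ≤ C v * Fm.abv v (pval R t - τ) := by
  classical
  letI := polyAlg t ht
  haveI := polyAlg_isScalarTower t ht
  haveI := polyAlg_finite t ht
  haveI := polyAlg_free t ht
  haveI : Infinite K := IsAlgClosed.instInfinite
  have hX : algebraMap K[X] (Rg K t) X = xInt K t := polyAlg_X t ht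
  obtain ⟨Cc, hCc, hlip⟩ := Lip.fibre_lip_norm_finset Fm (region t Fm ρ) x
    (fun i => tbdd t Fm hρ (x i)) (by rw [hX]; exact tbdd t Fm hρ _)
  refine ⟨Cc, hCc, fun v R hR hRρ τ hτ Z hZ1 hZ0 => ?_⟩
  -- the dictionary
  set φ : (Rg K t →ₐ[K] K) → Place K F := fun S => (ptEquiv t ht S).1 with hφ
  have hφinj : Function.Injective φ := fun S S' h =>
    (ptEquiv t ht).injective (Subtype.ext h)
  have hφt : ∀ S, 0 ≤ (φ S).ord t := fun S => (ptEquiv t ht S).2
  have hval : ∀ (S : Rg K t →ₐ[K] K) (c : Rg K t), pval (φ S) (c : F) = S c :=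
    fun S c => pval_eq _ (val_sub_lt_one t ht S c)
  set pR : Rg K t →ₐ[K] K := (ptEquiv t ht).symm ⟨R, hR⟩ with hpR
  have hφR : φ pR = R := by
    rw [hφ, hpR]
    simp
  have hpRval : ∀ c : Rg K t, pR c = pval R (c : F) := by
    intro c
    rw [← hval pR c, hφR]
  obtain ⟨s, e, hs, he, hnorm⟩ := hfib τ
  -- the function `t - τ` in the chart ring
  set c : Rg K t := xInt K t - algebraMap K (Rg K t) τ with hc
  have hcF : (c : F) = t - algebraMap K F τ := rfl
  have hc0 : c ≠ 0 := by
    intro h0
    have h1 : t - algebraMap K F τ = 0 := by rw [← hcF, h0]; rfl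
    exact ht (sub_eq_zero.1 h1 ▸ isAlgebraic_algebraMap τ)
  have hcX : algebraMap K[X] (Rg K t) (X - C τ) = c := by
    rw [map_sub, hX, hc]
    congr 1
    exact polyAlg_C t ht τ
  have hSc : ∀ S : Rg K t →ₐ[K] K, S c = S (xInt K t) - τ := by
    intro S
    rw [hc, map_sub, AlgHom.commutes]
    rfl
  -- multiplicities
  have hmult : ∀ S ∈ s, (e S : ℤ) = (φ S).ord (t - algebraMap K F τ) := by
    intro S hS
    obtain ⟨-, h1, h2⟩ := he S hS
    rw [hcX] at h1 h2
    rw [mem_ker_pow_iff t ht S hc0] at h1 h2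
    rw [hcF] at h1 h2
    push_cast at h2
    change (e S : ℤ) = (ptEquiv t ht S).1.ord (t - algebraMap K F τ)
    omega
  have hZe : ∀ S ∈ s, Z (φ S) = e S := by
    intro S hS
    have h1 := hZ1 (φ S) (hφt S)
    rw [← hmult S hS] at h1
    exact_mod_cast h1
  -- the support of `Z`
  have hsupp : Z.support = s.image φ := by
    ext P
    rw [Finsupp.mem_support_iff, Finset.mem_image]
    constructor
    · intro hP
      have hPt : 0 ≤ P.ord t := by
        by_contra hneg
        exact hP (hZ0 P (not_le.1 hneg))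
      have hPpos : 0 < P.ord (t - algebraMap K F τ) := by
        have h1 := hZ1 P hPt
        have h2 : 0 < Z P := Nat.pos_of_ne_zero hP
        omega
      set S : Rg K t →ₐ[K] K := (ptEquiv t ht).symm ⟨P, hPt⟩ with hSdef
      have hφS : φ S = P := by
        rw [hφ, hSdef]
        simp
      refine ⟨S, ?_, hφS⟩
      rw [hs, hX]
      have h3 : S c = 0 := by
        rw [apply_eq_zero_iff t ht S c]
        left
        change 0 < (φ S).ord (c : F)
        rw [hφS, hcF]
        exact hPpos
      rw [hSc] at h3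
      exact sub_eq_zero.1 h3
    · rintro ⟨S, hS, rfl⟩
      rw [hZe S hS]
      exact (he S hS).1.ne'
  -- the product over the fibre
  have hprod : (Z.prod fun S k => (⨆ i, Fm.abv v (pval S (x i : F) - pval R (x i : F))) ^ k)
      = ∏ S ∈ s, cdist Fm x v pR S ^ e S := by
    rw [Finsupp.prod, hsupp, Finset.prod_image (fun S _ S' _ h => hφinj h)]
    refine Finset.prod_congr rfl fun S hS => ?_
    rw [hZe S hS]
    congr 1
    unfold cdist
    congr 1
    funext i
    rw [hval S (x i), hpRval (x i)]
  rw [hprod]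
  have hmemR : pR ∈ region t Fm ρ v := by
    rw [mem_region, hpRval]
    exact hRρ
  have hsne : ∃ S ∈ s, 0 < e S := by
    by_contra hcon
    have hs0 : s = ∅ := by
      rw [Finset.eq_empty_iff_forall_notMem]
      intro S hS
      exact hcon ⟨S, hS, (he S hS).1⟩
    have h1 := hnorm 0
    rw [hs0, Finset.prod_empty, Algebra.norm_zero, eval_zero] at h1
    exact zero_ne_one h1
  have hsB : ∀ S ∈ s, S ∈ region t Fm ρ v ∧ S (algebraMap K[X] (Rg K t) X) = τ := by
    intro S hS
    have h1 := (hs S).1 hS
    refine ⟨?_, h1⟩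
    rw [mem_region, ← hX, h1]
    exact hτ
  have main := hlip v pR hmemR τ s e hsne hsB hnorm
  rw [hX, hpRval] at main
  exact main

end Main

end Fermat.Agent.MW.Adj.LipRg
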