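/-
MW / route γ — the literal fibre-Lipschitz targets `TwoChart.FibLip0` / `TwoChart.FibLip1` of the
two-chart assembly (`MW/HtM/TwoChartDefs.lean`) from the fibre formula of the chart rings of `t`
and of `t⁻¹` (`LipRg.FibreFormula`).

* `fibLip0_of_fibre` : `FibreFormula t ht → FibLip0 Ab t pinf x₀` for coordinates `x₀` integral over
  `K[t]`;
* `fibLip1_of_fibre` : `FibreFormula t⁻¹ ht' → FibLip1 Ab t pinf x₁` for coordinates `x₁` integral
  over `K[t⁻¹]` (the zero divisor of `t - τ` off `pinf` is the zero divisor of `t⁻¹ - τ⁻¹` on the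
  chart of `t⁻¹`).
Here `pinf` is the only pole of `t`.
-/
import Mathlib
import Fermat.Agent.MW.HtM.TwoChartDefs
import Fermat.Agent.MW.Adj.LipRg

set_option autoImplicit false
set_option linter.style.haveILetI false

noncomputable section

namespace Fermat.Agent.MW.Adj.FibLip

open Polynomial AlgebraicCurve IntermediateField WithZero
open Fermat.Agent.MW.HtM Fermat.Agent.MW.HtM.TwoChart Fermat.Agent.MW.HtM.RegRing

universe uK uF

variable {K : Type uK} {F : Type uF} [Field K] [Field F] [Algebra K F]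

/-- The value of the inverse of a function with non-zero value. -/
theorem pval_inv_of_ne_zero (P : Place K F) {f : F} (h0 : pval P f ≠ 0) :
    pval P f⁻¹ = (pval P f)⁻¹ := by
  classical
  have hex : ∃ c : K, P.adicValuation (f - algebraMap K F c) < 1 := by
    by_contra hcon
    apply h0
    unfold pval
    rw [dif_neg hcon]
  have h1 := pval_spec P hex
  set c := pval P f with hc
  have hc1 : P.adicValuation (algebraMap K F c) = 1 := adicValuation_algebraMap P h0
  have hf1 : P.adicValuation f = 1 := by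
    have e : f = (f - algebraMap K F c) + algebraMap K F c := by ring
    rw [e, Valuation.map_add_eq_of_lt_right, hc1]
    rw [hc1]; exact h1
  have hf0 : f ≠ 0 := by
    rintro rfl
    rw [map_zero] at hf1
    exact zero_ne_one hf1
  have hc0 : algebraMap K F c ≠ 0 := by
    intro h
    rw [h, map_zero] at hc1
    exact zero_ne_one hc1
  apply pval_eq
  have e : f⁻¹ - algebraMap K F c⁻¹ = -((f - algebraMap K F c) * f⁻¹ * (algebraMap K F c)⁻¹) := by
    rw [map_inv₀]
    field_simp
    ring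
  rw [e, Valuation.map_neg, map_mul, map_mul, map_inv₀, map_inv₀, hf1, hc1, inv_one, mul_one,
    mul_one]
  exact h1

theorem adicValuation_lt_one_of_ord_pos (P : Place K F) {f : F} (hf : 0 < P.ord f) :
    P.adicValuation f < 1 := by
  have hf0 : f ≠ 0 := by
    rintro rfl
    rw [Place.ord_zero] at hf
    exact lt_irrefl _ hf
  rw [P.adicValuation_eq_exp_neg_ord hf0, ← exp_zero, exp_lt_exp]
  omega

theorem ord_eq_zero_of_adicValuation_eq_one (P : Place K F) {f : F}
    (hf : P.adicValuation f = 1) : P.ord f = 0 := by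
  have hf0 : f ≠ 0 := by
    rintro rfl
    rw [map_zero] at hf
    exact zero_ne_one hf
  rw [P.adicValuation_eq_exp_neg_ord hf0, ← exp_zero, exp_inj] at hf
  omega

theorem adicValuation_eq_one_of_ord_eq_zero (P : Place K F) {f : F} (hf0 : f ≠ 0)
    (hf : P.ord f = 0) : P.adicValuation f = 1 := by
  rw [P.adicValuation_eq_exp_neg_ord hf0, hf, neg_zero, exp_zero]

/-- A function with a zero at `P` minus a non-zero constant is a unit at `P`. -/
theorem ord_sub_const_eq_zero (P : Place K F) {f : F} (hf : 0 < P.ord f) {c : K} (hc : c ≠ 0) :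
    P.ord (f - algebraMap K F c) = 0 := by
  apply ord_eq_zero_of_adicValuation_eq_one
  have h1 := adicValuation_lt_one_of_ord_pos P hf
  have hc1 : P.adicValuation (algebraMap K F c) = 1 := adicValuation_algebraMap P hc
  rw [Valuation.map_sub_eq_of_lt_right, hc1]
  rw [hc1]; exact h1

/-- `f⁻¹ - c⁻¹` and `f - c` have the same order at a place where `f` is a unit. -/
theorem ord_inv_sub_inv (P : Place K F) {f : F} (hf0 : f ≠ 0) (hf : P.ord f = 0) {c : K}
    (hc : c ≠ 0) (hne : f - algebraMap K F c ≠ 0) :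
    P.ord (f⁻¹ - algebraMap K F c⁻¹) = P.ord (f - algebraMap K F c) := by
  have hc1 : P.adicValuation (algebraMap K F c) = 1 := adicValuation_algebraMap P hc
  have hf1 := adicValuation_eq_one_of_ord_eq_zero P hf0 hf
  have hc0 : algebraMap K F c ≠ 0 := by
    intro h
    rw [h, map_zero] at hc1
    exact zero_ne_one hc1
  have e : f⁻¹ - algebraMap K F c⁻¹ = -((f - algebraMap K F c) * f⁻¹ * (algebraMap K F c)⁻¹) := by
    rw [map_inv₀]
    field_simp
    ring
  have hne' : f⁻¹ - algebraMap K F c⁻¹ ≠ 0 := by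
    rw [e]
    exact neg_ne_zero.2 (mul_ne_zero (mul_ne_zero hne (inv_ne_zero hf0)) (inv_ne_zero hc0))
  have h1 : P.adicValuation (f⁻¹ - algebraMap K F c⁻¹) = P.adicValuation (f - algebraMap K F c) := by
    rw [e, Valuation.map_neg, map_mul, map_mul, map_inv₀, map_inv₀, hf1, hc1, inv_one, mul_one,
      mul_one]
  rw [P.adicValuation_eq_exp_neg_ord hne', P.adicValuation_eq_exp_neg_ord hne, exp_inj] at h1
  omega

variable [IsAlgClosed K] {V : Type*} (Ab : AbsFamily K V)

/-- **`FibLip0` from the fibre formula of the chart ring of `t`.** -/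
theorem fibLip0_of_fibre (t : F) (ht : Transcendental K t) [FiniteDimensional K⟮t⟯ F]
    (pinf : Place K F) (hreg : ∀ P : Place K F, P ≠ pinf → 0 ≤ P.ord t) (hpole : pinf.ord t < 0)
    (hfib : LipRg.FibreFormula t ht) {n₀ : ℕ} (x₀ : Fin n₀ → F)
    (hx₀ : ∀ i, x₀ i ∈ integralClosure (Algebra.adjoin K {t}) F) :
    FibLip0 Ab t pinf x₀ := by
  obtain ⟨Cc, hCc, h⟩ := LipRg.lip_rg_of_fibre t ht hfib Ab (tame_rho Ab)
    (fun i => (⟨x₀ i, hx₀ i⟩ : Rg K t))
  refine ⟨Cc, hCc, fun v R hR hRρ τ hτ Z hZinf hZ => ?_⟩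
  have key := h v R (hreg R hR) hRρ τ hτ Z
    (fun P hP => hZ P (by rintro rfl; omega))
    (fun P hP => by
      have hPinf : P = pinf := by
        by_contra hne
        have := hreg P hne
        omega
      rw [hPinf]; exact hZinf)
  have e : (fun (S : Place K F) (k : ℕ) => pdist Ab x₀ v S R ^ k)
      = fun S k => (⨆ i, Ab.abv v (pval S (x₀ i) - pval R (x₀ i))) ^ k := by
    funext S k
    rw [pdist_comm]
    rfl
  rw [e]
  exact key

/-- **`FibLip1` from the fibre formula of the chart ring of `t⁻¹`.** -/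
theorem fibLip1_of_fibre (t : F) (ht' : Transcendental K t⁻¹) [FiniteDimensional K⟮t⁻¹⟯ F]
    (pinf : Place K F) (hreg : ∀ P : Place K F, P ≠ pinf → 0 ≤ P.ord t) (hpole : pinf.ord t < 0)
    (hfib : LipRg.FibreFormula t⁻¹ ht') {n₁ : ℕ} (x₁ : Fin n₁ → F)
    (hx₁ : ∀ i, x₁ i ∈ integralClosure (Algebra.adjoin K {t⁻¹}) F) :
    FibLip1 Ab t pinf x₁ := by
  obtain ⟨Cc, hCc, h⟩ := LipRg.lip_rg_of_fibre t⁻¹ ht' hfib Ab (tame_rho Ab)
    (fun i => (⟨x₁ i, hx₁ i⟩ : Rg K t⁻¹))
  refine ⟨Cc, hCc, fun v R hR hRρ τ hτ Z hZinf hZ => ?_⟩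
  have hρ0 : 0 < (rho Ab v)⁻¹ := inv_pos.2 (rho_pos Ab v)
  have ht0 : t ≠ 0 := by
    rintro rfl
    rw [Place.ord_zero] at hpole
    exact lt_irrefl _ hpole
  -- `τ ≠ 0` and `t(R) ≠ 0`
  have hτ0 : τ ≠ 0 := by
    rintro rfl
    rw [map_zero] at hτ
    exact absurd hτ (not_le.2 hρ0)
  have hRt0 : pval R t ≠ 0 := by
    intro h0
    have : tabs Ab t v R = 0 := by unfold tabs; rw [h0, map_zero]
    rw [this] at hRρ
    exact absurd hRρ (not_le.2 hρ0)
  have hRinv : pval R t⁻¹ = (pval R t)⁻¹ := pval_inv_of_ne_zero R hRt0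
  have hRord : R.ord t = 0 := by
    have h1 := hreg R hR
    by_contra hne
    have h2 : 0 < R.ord t := by omega
    exact hRt0 (pval_eq_zero_of_ord_pos h2)
  have htne : ∀ c : K, t - algebraMap K F c ≠ 0 := by
    intro c hc
    have : t = algebraMap K F c := sub_eq_zero.1 hc
    have hpole' := hpole
    rw [this] at hpole'
    by_cases hc0 : c = 0
    · rw [hc0, map_zero, Place.ord_zero] at hpole'
      exact lt_irrefl _ hpole'
    · have := ord_eq_zero_of_adicValuation_eq_one pinf (adicValuation_algebraMap pinf hc0)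
      omega
  have key := h v R (by rw [Place.ord_inv]; omega)
    (by
      rw [hRinv, map_inv₀]
      exact (inv_le_comm₀ (lt_of_lt_of_le hρ0 hRρ) (rho_pos Ab v)).2 hRρ)
    τ⁻¹
    (by
      rw [map_inv₀]
      exact (inv_le_comm₀ (lt_of_lt_of_le hρ0 hτ) (rho_pos Ab v)).2 hτ)
    Z
    (fun P hP => by
      rw [Place.ord_inv] at hP
      by_cases hPinf : P = pinf
      · rw [hPinf, hZinf]
        have h1 : 0 < pinf.ord t⁻¹ := by rw [Place.ord_inv]; omega
        rw [ord_sub_const_eq_zero pinf h1 (inv_ne_zero hτ0)]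
        rfl
      · have h1 := hreg P hPinf
        have h2 : P.ord t = 0 := by omega
        rw [hZ P hPinf, ord_inv_sub_inv P ht0 h2 hτ0 (htne τ)])
    (fun P hP => by
      rw [Place.ord_inv] at hP
      have hPinf : P ≠ pinf := by
        rintro rfl
        omega
      have h1 : 0 < P.ord t := by omega
      have h2 := hZ P hPinf
      rw [ord_sub_const_eq_zero P h1 hτ0] at h2
      exact_mod_cast h2)
  have e : (fun (S : Place K F) (k : ℕ) => pdist Ab x₁ v S R ^ k)
      = fun S k => (⨆ i, Ab.abv v (pval S (x₁ i) - pval R (x₁ i))) ^ k := by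
    funext S k
    rw [pdist_comm]
    rfl
  rw [e, ← hRinv]
  exact key

end Fermat.Agent.MW.Adj.FibLip
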