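import Mathlib

/-!
# The fibre formula for the norm (Dedekind form)

`A` a Dedekind domain, free of finite rank over `K[X]` (`K` algebraically closed), `t` the image
of `X`.  For every `τ : K` the fibre `{S : A →ₐ[K] K | S t = τ}` is finite, and with
`e S` = the exact power of `ker S` containing `t - τ`:

* `(Algebra.norm K[X] y).eval τ = ∏_{S t = τ} S y ^ e S` for every `y : A`;
* `∑_{S t = τ} e S = finrank K[X] A`.

Main statements: `exists_fibre` (literal brick (F)), `exists_fibre'` (with the degree identity),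
`exists_fibre_multiset'` (multiset form).  Everything is Mathlib-only.
-/

namespace Fermat.Agent.MW.Adj.Fibre

open Polynomial

section Quot

variable {K : Type*} [Field K] {A : Type*} [CommRing A] [Algebra K A]

/-- A character is determined by its kernel. -/
theorem char_eq_of_ker_eq {S S' : A →ₐ[K] K}
    (h : RingHom.ker S.toRingHom = RingHom.ker S'.toRingHom) : S = S' := by
  ext a
  have h1 : a - algebraMap K A (S a) ∈ RingHom.ker S.toRingHom := by
    simp [RingHom.mem_ker]
  rw [h] at h1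
  have h2 : S' a - S a = 0 := by simpa [RingHom.mem_ker] using h1
  exact (sub_eq_zero.mp h2).symm

theorem ker_char_injective :
    Function.Injective (fun S : A →ₐ[K] K => RingHom.ker S.toRingHom) :=
  fun _ _ h => char_eq_of_ker_eq h

theorem ker_char_isMaximal (S : A →ₐ[K] K) : (RingHom.ker S.toRingHom).IsMaximal :=
  RingHom.ker_isMaximal_of_surjective S.toRingHom (fun c => ⟨algebraMap K A c, by simp⟩)

/-- On `J / 𝔪J` the ring acts through the character with kernel `𝔪`. -/
theorem mk_mul_eq_smul (S : A →ₐ[K] K) (J : Ideal A) (d : A) {a : A} (ha : a ∈ J) :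
    Ideal.Quotient.mk (RingHom.ker S.toRingHom * J) (d * a) =
      S d • Ideal.Quotient.mk (RingHom.ker S.toRingHom * J) a := by
  have h1 : d - algebraMap K A (S d) ∈ RingHom.ker S.toRingHom := by simp [RingHom.mem_ker]
  have h2 := Ideal.mul_mem_mul h1 ha
  rw [← Ideal.Quotient.eq_zero_iff_mem, sub_mul, map_sub, sub_eq_zero] at h2
  rw [h2, map_mul, Algebra.smul_def, Ideal.Quotient.mk_algebraMap]

/-- Dedekind: `J / 𝔪J` is generated by any element outside `𝔪J`. -/
theorem span_sup_mul_eq [IsDedekindDomain A] {𝔪 J : Ideal A} (h𝔪 : 𝔪.IsMaximal) (hJ : J ≠ ⊥)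
    {a : A} (ha : a ∈ J) (ha' : a ∉ 𝔪 * J) : Ideal.span {a} ⊔ 𝔪 * J = J := by
  have hLJ : Ideal.span {a} ⊔ 𝔪 * J ≤ J :=
    sup_le ((Ideal.span_singleton_le_iff_mem _).mpr ha) Ideal.mul_le_right
  obtain ⟨L', hL'⟩ := Ideal.dvd_iff_le.mpr hLJ
  have h2 : Ideal.span {a} ⊔ 𝔪 * J ∣ 𝔪 * J := Ideal.dvd_iff_le.mpr le_sup_right
  rw [hL', mul_comm 𝔪 J] at h2
  have h3 : L' ∣ 𝔪 := (mul_dvd_mul_iff_left hJ).mp h2
  have h4 : 𝔪 ≤ L' := Ideal.dvd_iff_le.mp h3
  by_cases h5 : L' = ⊤
  · rw [hL', h5, Ideal.mul_top]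
  · have h6 := h𝔪.eq_of_le h5 h4
    exfalso
    apply ha'
    have h7 : a ∈ Ideal.span {a} ⊔ 𝔪 * J := Ideal.mem_sup_left (Ideal.mem_span_singleton_self a)
    rw [hL', ← h6, mul_comm] at h7
    exact h7

/-- The step of the filtration: passing from `A ⧸ J` to `A ⧸ 𝔪J` multiplies the norm by the
character and raises the dimension by one. -/
theorem norm_mk_ker_mul [IsDedekindDomain A] (S : A →ₐ[K] K) {J : Ideal A} (hJ : J ≠ ⊥)
    [Module.Finite K (A ⧸ (RingHom.ker S.toRingHom * J))] (y : A) :
    Algebra.norm K (Ideal.Quotient.mk (RingHom.ker S.toRingHom * J) y) =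
        S y * Algebra.norm K (Ideal.Quotient.mk J y) ∧
      Module.finrank K (A ⧸ (RingHom.ker S.toRingHom * J)) = Module.finrank K (A ⧸ J) + 1 := by
  have h𝔪 : (RingHom.ker S.toRingHom).IsMaximal := ker_char_isMaximal S
  have hle : RingHom.ker S.toRingHom * J ≤ J := Ideal.mul_le_right
  let π : (A ⧸ (RingHom.ker S.toRingHom * J)) →ₐ[K] (A ⧸ J) := Ideal.Quotient.factorₐ K hle
  have hπ : Function.Surjective π := Ideal.Quotient.factor_surjective hle
  have hπmk : ∀ c : A, π (Ideal.Quotient.mk _ c) = Ideal.Quotient.mk J c := fun c => rfl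
  let W : Submodule K (A ⧸ (RingHom.ker S.toRingHom * J)) := LinearMap.ker π.toLinearMap
  have hWmem : ∀ c : A, Ideal.Quotient.mk (RingHom.ker S.toRingHom * J) c ∈ W ↔ c ∈ J := by
    intro c
    simp only [W, LinearMap.mem_ker, AlgHom.toLinearMap_apply, hπmk,
      Ideal.Quotient.eq_zero_iff_mem]
  let f : (A ⧸ (RingHom.ker S.toRingHom * J)) →ₗ[K] (A ⧸ (RingHom.ker S.toRingHom * J)) :=
    Algebra.lmul K _ (Ideal.Quotient.mk (RingHom.ker S.toRingHom * J) y)
  have hfapp : ∀ m, f m = Ideal.Quotient.mk (RingHom.ker S.toRingHom * J) y * m := fun m => rfl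
  have hf : W ≤ W.comap f := by
    intro w hw
    simp only [W, LinearMap.mem_ker, Submodule.mem_comap, AlgHom.toLinearMap_apply] at hw ⊢
    rw [hfapp, map_mul, hw, mul_zero]
  -- the action on `W`
  have hact : ∀ w ∈ W, f w = S y • w := by
    intro w hw
    obtain ⟨c, rfl⟩ := Ideal.Quotient.mk_surjective w
    rw [hfapp, ← map_mul]
    exact mk_mul_eq_smul S J y ((hWmem c).mp hw)
  -- `W` is a line
  have hW1 : Module.finrank K W = 1 := by
    have hne : ¬ J ≤ RingHom.ker S.toRingHom * J := by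
      intro h
      have h1 : J * RingHom.ker S.toRingHom = J * 1 := by
        rw [mul_one, mul_comm]; exact le_antisymm hle h
      have h2 := mul_left_cancel₀ hJ h1
      exact h𝔪.ne_top (by rw [h2, Ideal.one_eq_top])
    obtain ⟨a, haJ, ha'⟩ := SetLike.not_le_iff_exists.mp hne
    have hgen := span_sup_mul_eq h𝔪 hJ haJ ha'
    refine finrank_eq_one (⟨Ideal.Quotient.mk _ a, (hWmem a).mpr haJ⟩ : W) ?_ ?_
    · intro h0
      apply ha'
      have h0' : Ideal.Quotient.mk (RingHom.ker S.toRingHom * J) a = 0 := congrArg Subtype.val h0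
      exact Ideal.Quotient.eq_zero_iff_mem.mp h0'
    · rintro ⟨w, hw⟩
      obtain ⟨c, rfl⟩ := Ideal.Quotient.mk_surjective w
      have hc : c ∈ Ideal.span {a} ⊔ RingHom.ker S.toRingHom * J := by
        rw [hgen]; exact (hWmem c).mp hw
      obtain ⟨d, b, hb, rfl⟩ := Ideal.mem_span_singleton_sup.mp hc
      refine ⟨S d, Subtype.ext ?_⟩
      simp only [SetLike.mk_smul_mk]
      rw [map_add, (Ideal.Quotient.eq_zero_iff_mem).mpr hb, add_zero]
      exact (mk_mul_eq_smul S J d haJ).symm
  have hdetW : LinearMap.det (f.restrict (p := W) (q := W) hf) = S y := by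
    have : f.restrict (p := W) (q := W) hf = S y • LinearMap.id := by
      ext ⟨w, hw⟩
      simp only [LinearMap.coe_restrict_apply, LinearMap.smul_apply, LinearMap.id_coe, id_eq,
        SetLike.mk_smul_mk]
      exact hact w hw
    rw [this, LinearMap.det_smul, hW1, pow_one, LinearMap.det_id, mul_one]
  -- the quotient
  let e : ((A ⧸ (RingHom.ker S.toRingHom * J)) ⧸ W) ≃ₗ[K] (A ⧸ J) :=
    π.toLinearMap.quotKerEquivOfSurjective hπ
  have he : ∀ m, e (Submodule.Quotient.mk m) = π m := fun m => rfl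
  have hconj : ∀ q, e (W.mapQ W f hf q) = Ideal.Quotient.mk J y * e q := by
    intro q
    obtain ⟨m, rfl⟩ := Submodule.mkQ_surjective W q
    rw [Submodule.mkQ_apply, Submodule.mapQ_apply, he, he, hfapp, map_mul, hπmk]
  have hcomp : (e : _ →ₗ[K] (A ⧸ J)) ∘ₗ (W.mapQ W f hf) ∘ₗ (e.symm : (A ⧸ J) →ₗ[K] _) =
      Algebra.lmul K (A ⧸ J) (Ideal.Quotient.mk J y) := by
    refine LinearMap.ext fun x => ?_
    rw [LinearMap.comp_apply, LinearMap.comp_apply, LinearEquiv.coe_coe, LinearEquiv.coe_coe,
      hconj, LinearEquiv.apply_symm_apply]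
    rfl
  have hdetQ : LinearMap.det (W.mapQ W f hf) = Algebra.norm K (Ideal.Quotient.mk J y) := by
    rw [Algebra.norm_apply, ← hcomp, LinearMap.det_conj]
  refine ⟨?_, ?_⟩
  · rw [Algebra.norm_apply]
    change LinearMap.det f = _
    rw [LinearMap.det_eq_det_mul_det W f hf, hdetW, hdetQ]
  · rw [← Submodule.finrank_quotient_add_finrank W, hW1, e.finrank_eq]

theorem finite_quot_of_le {I J : Ideal A} (h : I ≤ J) [Module.Finite K (A ⧸ I)] :
    Module.Finite K (A ⧸ J) :=
  Module.Finite.of_surjective (Ideal.Quotient.factorₐ K h).toLinearMap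
    (Ideal.Quotient.factor_surjective h)

/-- The norm on `A ⧸ 𝔪₁⋯𝔪ₖ` is the product of the characters; the dimension is `k`. -/
theorem norm_mk_of_prod_eq [IsDedekindDomain A] (Z : Multiset (A →ₐ[K] K)) :
    ∀ J : Ideal A, (Z.map fun S => RingHom.ker S.toRingHom).prod = J → J ≠ ⊥ →
      Module.Finite K (A ⧸ J) → ∀ y : A,
        Algebra.norm K (Ideal.Quotient.mk J y) = (Z.map fun S => S y).prod ∧
          Module.finrank K (A ⧸ J) = Multiset.card Z := by
  induction Z using Multiset.induction_on with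
  | empty =>
    intro J hJ _ _ y
    rw [Multiset.map_zero, Multiset.prod_zero, Ideal.one_eq_top] at hJ
    subst hJ
    have : Subsingleton (A ⧸ (⊤ : Ideal A)) := Ideal.Quotient.subsingleton_iff.mpr rfl
    have h0 : Module.finrank K (A ⧸ (⊤ : Ideal A)) = 0 := Module.finrank_zero_of_subsingleton
    refine ⟨?_, by simpa using h0⟩
    rw [Algebra.norm_apply, LinearMap.det_eq_one_of_finrank_eq_zero h0]
    simp
  | cons S Z ih =>
    intro J hJ hJ0 hfin y
    rw [Multiset.map_cons, Multiset.prod_cons] at hJ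
    subst hJ
    have hJ' : (Z.map fun S => RingHom.ker S.toRingHom).prod ≠ ⊥ := by
      intro h
      apply hJ0
      rw [h, Ideal.mul_bot]
    have : Module.Finite K (A ⧸ (Z.map fun S => RingHom.ker S.toRingHom).prod) :=
      finite_quot_of_le (I := RingHom.ker S.toRingHom * (Z.map fun S => RingHom.ker S.toRingHom).prod)
        Ideal.mul_le_right
    obtain ⟨h1, h2⟩ := norm_mk_ker_mul S hJ' y
    obtain ⟨h3, h4⟩ := ih _ rfl hJ' inferInstance y
    refine ⟨?_, ?_⟩
    · rw [h1, h3, Multiset.map_cons, Multiset.prod_cons]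
    · rw [h2, h4, Multiset.card_cons]

/-- A maximal ideal with finite-dimensional quotient is the kernel of a character. -/
theorem exists_char_of_isMaximal [IsAlgClosed K] {P : Ideal A} (hP : P.IsMaximal)
    [Module.Finite K (A ⧸ P)] : ∃ S : A →ₐ[K] K, RingHom.ker S.toRingHom = P := by
  have : IsDomain (A ⧸ P) := (Ideal.Quotient.isDomain_iff_prime P).mpr hP.isPrime
  have : Algebra.IsIntegral K (A ⧸ P) := Algebra.IsIntegral.of_finite K (A ⧸ P)
  have hbij : Function.Bijective (algebraMap K (A ⧸ P)) :=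
    IsAlgClosed.algebraMap_bijective_of_isIntegral
  let e : K ≃ₐ[K] (A ⧸ P) := AlgEquiv.ofBijective (Algebra.ofId K (A ⧸ P)) hbij
  refine ⟨(e.symm : (A ⧸ P) →ₐ[K] K).comp (Ideal.Quotient.mkₐ K P), ?_⟩
  ext a
  simp [RingHom.mem_ker, Ideal.Quotient.eq_zero_iff_mem]

theorem exists_multiset_map_eq {α β : Type*} (g : α → β) (F : Multiset β)
    (h : ∀ x ∈ F, ∃ a, g a = x) : ∃ Z : Multiset α, Z.map g = F := by
  induction F using Multiset.induction_on with
  | empty => exact ⟨0, rfl⟩
  | cons x F ih =>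
    obtain ⟨a, ha⟩ := h x (Multiset.mem_cons_self x F)
    obtain ⟨Z, hZ⟩ := ih (fun y hy => h y (Multiset.mem_cons_of_mem hy))
    exact ⟨a ::ₘ Z, by rw [Multiset.map_cons, ha, hZ]⟩

end Quot

section BaseChange

variable {K : Type*} [Field K] {A : Type*} [CommRing A] [Algebra K A] [Algebra K[X] A]
  [IsScalarTower K K[X] A]

/-- Modulo `t - τ`, a polynomial acts through its value at `τ`. -/
theorem mk_smul_eq (τ : K) (p : K[X]) (a : A) :
    Ideal.Quotient.mk (Ideal.span {algebraMap K[X] A (X - C τ)}) (p • a) =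
      p.eval τ • Ideal.Quotient.mk (Ideal.span {algebraMap K[X] A (X - C τ)}) a := by
  obtain ⟨q, hq⟩ : (X - C τ) ∣ p - C (p.eval τ) := by
    rw [Polynomial.dvd_iff_isRoot]; simp
  have hp : p = C (p.eval τ) + (X - C τ) * q := by rw [← hq]; ring
  have h1 : p • a = p.eval τ • a + algebraMap K[X] A (X - C τ) * (q • a) := by
    conv_lhs => rw [hp]
    rw [add_smul, mul_smul, Algebra.smul_def (X - C τ), Polynomial.C_eq_algebraMap,
      algebraMap_smul]
  have h2 : Ideal.Quotient.mk (Ideal.span {algebraMap K[X] A (X - C τ)})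
      (algebraMap K[X] A (X - C τ) * (q • a)) = 0 :=
    Ideal.Quotient.eq_zero_iff_mem.mpr
      (Ideal.mul_mem_right _ _ (Ideal.mem_span_singleton_self _))
  rw [h1, map_add, h2, add_zero, Algebra.smul_def, Algebra.smul_def, map_mul,
    Ideal.Quotient.mk_algebraMap]

variable {ι : Type*} [Fintype ι]

theorem mk_eq_sum (τ : K) (b : Module.Basis ι K[X] A) (a : A) :
    Ideal.Quotient.mk (Ideal.span {algebraMap K[X] A (X - C τ)}) a =
      ∑ i, (b.repr a i).eval τ •
        Ideal.Quotient.mk (Ideal.span {algebraMap K[X] A (X - C τ)}) (b i) := by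
  conv_lhs => rw [← b.sum_repr a]
  rw [map_sum]
  exact Finset.sum_congr rfl fun i _ => mk_smul_eq τ _ _

theorem linearIndependent_mk (τ : K) (b : Module.Basis ι K[X] A) :
    LinearIndependent K
      (fun i => Ideal.Quotient.mk (Ideal.span {algebraMap K[X] A (X - C τ)}) (b i)) := by
  rw [Fintype.linearIndependent_iff]
  intro g hg i
  have h1 : Ideal.Quotient.mk (Ideal.span {algebraMap K[X] A (X - C τ)})
      (∑ i, C (g i) • b i) = 0 := by
    rw [map_sum, ← hg]
    refine Finset.sum_congr rfl fun i _ => ?_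
    rw [mk_smul_eq, eval_C]
  rw [Ideal.Quotient.eq_zero_iff_mem, Ideal.mem_span_singleton'] at h1
  obtain ⟨a', ha'⟩ := h1
  have h2 : b.repr (∑ i, C (g i) • b i) i = C (g i) := by
    rw [b.repr_sum_self]
  rw [← ha', mul_comm, ← Algebra.smul_def, map_smul, Finsupp.smul_apply, smul_eq_mul] at h2
  have h3 := congrArg (Polynomial.eval τ) h2
  simpa using h3.symm

theorem span_mk (τ : K) (b : Module.Basis ι K[X] A) :
    ⊤ ≤ Submodule.span K (Set.range
      (fun i => Ideal.Quotient.mk (Ideal.span {algebraMap K[X] A (X - C τ)}) (b i))) := by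
  rintro x -
  obtain ⟨a, rfl⟩ := Ideal.Quotient.mk_surjective x
  rw [mk_eq_sum τ b a]
  exact Submodule.sum_mem _ fun i _ =>
    Submodule.smul_mem _ _ (Submodule.subset_span (Set.mem_range_self i))

/-- The basis of the fibre algebra `A ⧸ (t - τ)` induced by a `K[X]`-basis of `A`. -/
noncomputable def basisMk (τ : K) (b : Module.Basis ι K[X] A) :
    Module.Basis ι K (A ⧸ Ideal.span {algebraMap K[X] A (X - C τ)}) :=
  Module.Basis.mk (linearIndependent_mk τ b) (span_mk τ b)

theorem basisMk_apply (τ : K) (b : Module.Basis ι K[X] A) (i : ι) :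
    basisMk τ b i = Ideal.Quotient.mk (Ideal.span {algebraMap K[X] A (X - C τ)}) (b i) := by
  rw [basisMk, Module.Basis.mk_apply]

theorem basisMk_repr_mk (τ : K) (b : Module.Basis ι K[X] A) (a : A) (i : ι) :
    (basisMk τ b).repr (Ideal.Quotient.mk _ a) i = (b.repr a i).eval τ := by
  have h : Ideal.Quotient.mk (Ideal.span {algebraMap K[X] A (X - C τ)}) a =
      ∑ i, (b.repr a i).eval τ • basisMk τ b i := by
    rw [mk_eq_sum τ b a]
    exact Finset.sum_congr rfl fun i _ => by rw [basisMk_apply]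
  rw [h, Module.Basis.repr_sum_self]

/-- The value at `τ` of the norm is the norm on the fibre algebra. -/
theorem norm_mk_eq_eval [DecidableEq ι] (τ : K) (b : Module.Basis ι K[X] A) (y : A) :
    Algebra.norm K (Ideal.Quotient.mk (Ideal.span {algebraMap K[X] A (X - C τ)}) y) =
      (Algebra.norm K[X] y).eval τ := by
  rw [Algebra.norm_eq_matrix_det (basisMk τ b), Algebra.norm_eq_matrix_det b,
    ← Polynomial.coe_evalRingHom, RingHom.map_det]
  congr 1
  ext i j
  rw [Algebra.leftMulMatrix_eq_repr_mul, basisMk_apply, ← map_mul, basisMk_repr_mk,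
    RingHom.mapMatrix_apply, Matrix.map_apply, Algebra.leftMulMatrix_eq_repr_mul,
    Polynomial.coe_evalRingHom]

end BaseChange

section Main

variable {K : Type*} [Field K] {A : Type*} [CommRing A] [Algebra K A] [Algebra K[X] A]
  [IsScalarTower K K[X] A]

theorem map_algebraMap_X_sub_C (S : A →ₐ[K] K) (τ : K) :
    S (algebraMap K[X] A (X - C τ)) = S (algebraMap K[X] A X) - τ := by
  rw [map_sub, map_sub, Polynomial.C_eq_algebraMap, ← IsScalarTower.algebraMap_apply,
    AlgHom.commutes]
  rfl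

omit [Algebra K A] [IsScalarTower K K[X] A] in
theorem span_X_sub_C_ne_bot [IsDomain A] [Module.Free K[X] A] (τ : K) :
    Ideal.span {algebraMap K[X] A (X - C τ)} ≠ ⊥ := by
  have hinj : Function.Injective (algebraMap K[X] A) := FaithfulSMul.algebraMap_injective K[X] A
  rw [Ne, Ideal.span_singleton_eq_bot]
  exact fun h => X_sub_C_ne_zero τ (hinj (by rw [h, map_zero]))

end Main

end Fermat.Agent.MW.Adj.Fibre

namespace Fermat.Agent.MW.Adj

open Polynomial Fibre

section Main

variable {K : Type*} [Field K] [IsAlgClosed K] {A : Type*} [CommRing A] [IsDedekindDomain A]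
  [Algebra K A] [Algebra K[X] A] [IsScalarTower K K[X] A] [Module.Free K[X] A]
  [Module.Finite K[X] A]

/-- Multiset form of the fibre formula, in terms of the prime factorisation of `(t - τ)`: the
kernels of the characters of `Z` are exactly the prime factors (with multiplicity). -/
theorem exists_fibre_factors (τ : K) :
    ∃ Z : Multiset (A →ₐ[K] K),
      (Z.map fun S => RingHom.ker S.toRingHom) =
        UniqueFactorizationMonoid.normalizedFactors
          (Ideal.span {algebraMap K[X] A (X - C τ)}) ∧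
      Multiset.card Z = Module.finrank K[X] A ∧
      ∀ y : A, (Algebra.norm K[X] y).eval τ = (Z.map fun S => S y).prod := by
  classical
  have hI : Ideal.span {algebraMap K[X] A (X - C τ)} ≠ ⊥ := span_X_sub_C_ne_bot τ
  let b := Module.Free.chooseBasis K[X] A
  have hfin : Module.Finite K (A ⧸ Ideal.span {algebraMap K[X] A (X - C τ)}) :=
    Module.Finite.of_basis (basisMk τ b)
  have hrank : Module.finrank K (A ⧸ Ideal.span {algebraMap K[X] A (X - C τ)}) =
      Module.finrank K[X] A := by
    rw [Module.finrank_eq_card_basis (basisMk τ b), Module.finrank_eq_card_basis b]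
  have hF : ∀ P ∈ UniqueFactorizationMonoid.normalizedFactors
      (Ideal.span {algebraMap K[X] A (X - C τ)}),
      ∃ S : A →ₐ[K] K, RingHom.ker S.toRingHom = P := by
    intro P hP
    obtain ⟨hPprime, hle⟩ := (Ideal.mem_normalizedFactors_iff hI).mp hP
    have hP0 : P ≠ ⊥ := fun h => hI (le_bot_iff.mp (h ▸ hle))
    have hPmax := hPprime.isMaximal hP0
    have := finite_quot_of_le (K := K) hle
    exact exists_char_of_isMaximal hPmax
  obtain ⟨Z, hZ⟩ := exists_multiset_map_eq _ _ hF
  have hprod : (Z.map fun S => RingHom.ker S.toRingHom).prod =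
      Ideal.span {algebraMap K[X] A (X - C τ)} := by
    rw [hZ, Ideal.prod_normalizedFactors_eq_self hI]
  refine ⟨Z, hZ, ?_, fun y => ?_⟩
  · rw [← hrank]
    exact ((norm_mk_of_prod_eq Z _ hprod hI hfin 0).2).symm
  · rw [← norm_mk_eq_eval τ b y]
    exact (norm_mk_of_prod_eq Z _ hprod hI hfin y).1

/-- Multiset form of the fibre formula: `Z` is the fibre over `τ` counted with multiplicity
(`Z.count S` is the exact power of `ker S` containing `t - τ`), `Z.card = finrank K[X] A`
(in particular `Z ≠ 0`), and `N(y)(τ) = ∏_{S ∈ Z} S y`. -/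
theorem exists_fibre_count [DecidableEq (A →ₐ[K] K)] (τ : K) :
    ∃ Z : Multiset (A →ₐ[K] K),
      Multiset.card Z = Module.finrank K[X] A ∧ Z ≠ 0 ∧
      (∀ S, S ∈ Z ↔ S (algebraMap K[X] A X) = τ) ∧
      (∀ S ∈ Z, algebraMap K[X] A (X - C τ) ∈ (RingHom.ker S.toRingHom) ^ Z.count S ∧
        algebraMap K[X] A (X - C τ) ∉ (RingHom.ker S.toRingHom) ^ (Z.count S + 1)) ∧
      ∀ y : A, (Algebra.norm K[X] y).eval τ = (Z.map fun S => S y).prod := by
  obtain ⟨Z, hZ, hcard, hnorm⟩ := exists_fibre_factors (A := A) τ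
  have hI : Ideal.span {algebraMap K[X] A (X - C τ)} ≠ ⊥ := span_X_sub_C_ne_bot τ
  have hle_iff : ∀ S : A →ₐ[K] K,
      Ideal.span {algebraMap K[X] A (X - C τ)} ≤ RingHom.ker S.toRingHom ↔
        S (algebraMap K[X] A X) = τ := by
    intro S
    rw [Ideal.span_singleton_le_iff_mem, RingHom.mem_ker]
    change S (algebraMap K[X] A (X - C τ)) = 0 ↔ _
    rw [map_algebraMap_X_sub_C, sub_eq_zero]
  have hmemZ : ∀ S, S ∈ Z ↔ Ideal.span {algebraMap K[X] A (X - C τ)} ≤ RingHom.ker S.toRingHom := by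
    intro S
    constructor
    · intro hS
      have h1 : RingHom.ker S.toRingHom ∈ UniqueFactorizationMonoid.normalizedFactors
          (Ideal.span {algebraMap K[X] A (X - C τ)}) := by
        rw [← hZ]; exact Multiset.mem_map_of_mem _ hS
      exact ((Ideal.mem_normalizedFactors_iff hI).mp h1).2
    · intro h1
      have h2 : RingHom.ker S.toRingHom ∈ UniqueFactorizationMonoid.normalizedFactors
          (Ideal.span {algebraMap K[X] A (X - C τ)}) :=
        (Ideal.mem_normalizedFactors_iff hI).mpr ⟨(ker_char_isMaximal S).isPrime, h1⟩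
      rw [← hZ, Multiset.mem_map] at h2
      obtain ⟨S', hS', hker⟩ := h2
      rwa [← char_eq_of_ker_eq hker]
  refine ⟨Z, hcard, ?_, fun S => (hmemZ S).trans (hle_iff S), ?_, hnorm⟩
  · intro h0
    have hpos : 0 < Module.finrank K[X] A := Module.finrank_pos
    rw [← hcard, h0, Multiset.card_zero] at hpos
    exact lt_irrefl _ hpos
  · intro S hS
    have hSle := (hmemZ S).mp hS
    have hne : RingHom.ker S.toRingHom ≠ ⊥ := fun h => hI (le_bot_iff.mp (h ▸ hSle))
    have hcount : Z.count S = (UniqueFactorizationMonoid.normalizedFactors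
        (Ideal.span {algebraMap K[X] A (X - C τ)})).count (RingHom.ker S.toRingHom) := by
      classical
      rw [← hZ]
      have := (Multiset.count_map_eq_count' _ Z (ker_char_injective (K := K) (A := A)) S).symm
      convert this using 2
    have hirr : Irreducible (RingHom.ker S.toRingHom) :=
      (Ideal.prime_of_isPrime hne (ker_char_isMaximal S).isPrime).irreducible
    have hmult : emultiplicity (RingHom.ker S.toRingHom)
        (Ideal.span {algebraMap K[X] A (X - C τ)}) = (Z.count S : ℕ∞) := by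
      rw [UniqueFactorizationMonoid.emultiplicity_eq_count_normalizedFactors hirr hI,
        normalize_eq, hcount]
    refine ⟨?_, ?_⟩
    · have h1 : RingHom.ker S.toRingHom ^ Z.count S ∣
          Ideal.span {algebraMap K[X] A (X - C τ)} := pow_dvd_of_le_emultiplicity hmult.ge
      exact (Ideal.dvd_iff_le.mp h1) (Ideal.mem_span_singleton_self _)
    · intro hmem
      have h1 : Ideal.span {algebraMap K[X] A (X - C τ)} ≤
          RingHom.ker S.toRingHom ^ (Z.count S + 1) :=
        (Ideal.span_singleton_le_iff_mem _).mpr hmem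
      have h3 := le_emultiplicity_of_pow_dvd (Ideal.dvd_iff_le.mpr h1)
      rw [hmult] at h3
      have h4 : Z.count S + 1 ≤ Z.count S := by exact_mod_cast h3
      omega

/-- The fibre formula with the degree identity `∑ e S = finrank K[X] A`. -/
theorem exists_fibre' (τ : K) :
    ∃ (s : Finset (A →ₐ[K] K)) (e : (A →ₐ[K] K) → ℕ),
      (∀ S, S ∈ s ↔ S (algebraMap K[X] A X) = τ) ∧
      (∀ S ∈ s, 0 < e S ∧ algebraMap K[X] A (X - C τ) ∈ (RingHom.ker S.toRingHom) ^ e S ∧
        algebraMap K[X] A (X - C τ) ∉ (RingHom.ker S.toRingHom) ^ (e S + 1)) ∧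
      (∀ y : A, (Algebra.norm K[X] y).eval τ = ∏ S ∈ s, S y ^ e S) ∧
      ∑ S ∈ s, e S = Module.finrank K[X] A ∧ s.Nonempty := by
  classical
  obtain ⟨Z, hcard, hne, hmem, hexact, hnorm⟩ := exists_fibre_count (A := A) τ
  refine ⟨Z.toFinset, fun S => Z.count S, ?_, ?_, ?_, ?_, ?_⟩
  · intro S
    rw [Multiset.mem_toFinset, hmem]
  · intro S hS
    rw [Multiset.mem_toFinset] at hS
    exact ⟨Multiset.count_pos.mpr hS, hexact S hS⟩
  · intro y
    rw [hnorm y, Finset.prod_multiset_map_count]
  · rw [Multiset.toFinset_sum_count_eq, hcard]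
  · rw [Multiset.toFinset_nonempty]
    exact hne

end Main

/-- **Brick (F)**: the fibre formula for the norm of a Dedekind domain finite free over `K[X]`
(`K` algebraically closed): the characters `S` with `S t = τ` form a finite set, `e S` is the
exact power of `ker S` containing `t - τ`, and `N(y)(τ) = ∏ S y ^ e S`. -/
theorem exists_fibre {K : Type*} [Field K] [IsAlgClosed K] {A : Type*} [CommRing A]
    [IsDedekindDomain A] [Algebra K A] [Algebra K[X] A] [IsScalarTower K K[X] A]
    [Module.Free K[X] A] [Module.Finite K[X] A] (τ : K) :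
    ∃ (s : Finset (A →ₐ[K] K)) (e : (A →ₐ[K] K) → ℕ),
      (∀ S, S ∈ s ↔ S (algebraMap K[X] A X) = τ) ∧
      (∀ S ∈ s, 0 < e S ∧ algebraMap K[X] A (X - C τ) ∈ (RingHom.ker S.toRingHom) ^ e S ∧
        algebraMap K[X] A (X - C τ) ∉ (RingHom.ker S.toRingHom) ^ (e S + 1)) ∧
      ∀ y : A, (Algebra.norm K[X] y).eval τ = ∏ S ∈ s, S y ^ e S := by
  obtain ⟨s, e, h1, h2, h3, -⟩ := exists_fibre' (A := A) τ
  exact ⟨s, e, h1, h2, h3⟩

end Fermat.Agent.MW.Adj
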