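/-
MW / route γ — `TwoChart.FibLip0` and `TwoChart.FibLip1` are THEOREMS.

The fibre formula of the chart ring `Rg K t = integralClosure K[t] F` (`fibreFormula`) is
helper81's Dedekind fibre formula `Adj.exists_fibre` for the `K[X]`-algebra structure `X ↦ t`;
with `FibLip.fibLip0_of_fibre` / `fibLip1_of_fibre` this gives the two fibre-Lipschitz targets of
the two-chart assembly of `LocalHt.lip`, for ANY coordinates integral over `K[t]`, resp. `K[t⁻¹]`.
-/
import Mathlib
import Fermat.Agent.MW.Adj.FibLip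
import Fermat.Agent.MW.Adj.Fibre

set_option autoImplicit false
set_option linter.style.haveILetI false

noncomputable section

namespace Fermat.Agent.MW.Adj.FibLipFinal

open Polynomial AlgebraicCurve IntermediateField
open Fermat.Agent.MW.HtM Fermat.Agent.MW.HtM.TwoChart Fermat.Agent.MW.HtM.RegRing
open Fermat.Agent.Lib.FF

universe uK uF

variable {K : Type uK} {F : Type uF} [Field K] [Field F] [Algebra K F] [IsAlgClosed K]

/-- **The fibre formula of the chart ring of `t`.** -/
theorem fibreFormula (t : F) (ht : Transcendental K t) [FiniteDimensional K⟮t⟯ F] :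
    LipRg.FibreFormula t ht := by
  letI := LipRg.polyAlg t ht
  haveI := LipRg.polyAlg_isScalarTower t ht
  haveI := LipRg.polyAlg_finite t ht
  haveI := LipRg.polyAlg_free t ht
  haveI : IsDedekindDomain (Rg K t) := IntP.isDedekindDomain t ht
  exact fun τ => exists_fibre τ

variable {V : Type*} (Ab : AbsFamily K V)

/-- **The fibre Lipschitz bound on chart 0** (`TwoChart.FibLip0`): `t` transcendental with its
only pole at `pinf`, `x₀` any finite family of functions integral over `K[t]`. -/
theorem fibLip0 (t : F) (ht : Transcendental K t) [FiniteDimensional K⟮t⟯ F]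
    (pinf : Place K F) (hreg : ∀ P : Place K F, P ≠ pinf → 0 ≤ P.ord t) (hpole : pinf.ord t < 0)
    {n₀ : ℕ} (x₀ : Fin n₀ → F) (hx₀ : ∀ i, x₀ i ∈ integralClosure (Algebra.adjoin K {t}) F) :
    FibLip0 Ab t pinf x₀ :=
  FibLip.fibLip0_of_fibre Ab t ht pinf hreg hpole (fibreFormula t ht) x₀ hx₀

/-- **The fibre Lipschitz bound on chart 1** (`TwoChart.FibLip1`): `x₁` any finite family of
functions integral over `K[t⁻¹]`. -/
theorem fibLip1 (t : F) (ht' : Transcendental K t⁻¹) [FiniteDimensional K⟮t⁻¹⟯ F]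
    (pinf : Place K F) (hreg : ∀ P : Place K F, P ≠ pinf → 0 ≤ P.ord t) (hpole : pinf.ord t < 0)
    {n₁ : ℕ} (x₁ : Fin n₁ → F) (hx₁ : ∀ i, x₁ i ∈ integralClosure (Algebra.adjoin K {t⁻¹}) F) :
    FibLip1 Ab t pinf x₁ :=
  FibLip.fibLip1_of_fibre Ab t ht' pinf hreg hpole (fibreFormula t⁻¹ ht') x₁ hx₁

end Fermat.Agent.MW.Adj.FibLipFinal
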