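/-
MW (S17), heights, route γ, brick (F'): the abstract fibre formula.

`K` algebraically closed, `A` a commutative `K`-algebra and a `K[X]`-algebra (`X ↦ t`), free of
finite rank as a `K[X]`-module.  For every `τ : K` there is a multiset `L` of `K`-points
`S : A →ₐ[K] K` with `S t = τ`, of cardinality `rank_{K[X]} A`, such that for every `y : A`

  `(N_{A/K[X]} y)(τ) = ∏_{S ∈ L} S y`.

Proof: the specialisation at `τ` of the multiplication matrices is a representation
`ρ : A →ₐ[K] End_K (K^n)` of a commutative algebra; such a representation is triangularisable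
(a common eigenvector, then induction on the dimension through `LinearMap.det_eq_det_mul_det`),
so `det (ρ y) = ∏ χ_i y` for characters `χ_i` of `A`; and `ρ t = τ`, so `χ_i t = τ`.

Mathlib only.
-/
import Mathlib

set_option autoImplicit false

namespace Fermat.Agent.MW.Adj.FibreAbs

open Polynomial Module

universe u

section CommonEigen

variable {K : Type*} [Field K] [IsAlgClosed K]

/-- Pairwise commuting endomorphisms of a nonzero finite-dimensional space over an algebraically
closed field have a common eigenvector. -/
theorem exists_common_eigenvector (n : ℕ) :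
    ∀ (V : Type u) [AddCommGroup V] [Module K V] [FiniteDimensional K V] [Nontrivial V]
      {ι : Type*} (f : ι → Module.End K V), (∀ i j, Commute (f i) (f j)) → finrank K V ≤ n →
      ∃ w : V, w ≠ 0 ∧ ∀ i, ∃ c : K, f i w = c • w := by
  induction n with
  | zero =>
    intro V _ _ _ _ ι f _ hn
    have := Module.finrank_pos (R := K) (M := V)
    omega
  | succ n ih =>
    intro V _ _ _ _ ι f hcomm hn
    by_cases hsc : ∀ i, ∃ c : K, ∀ x, f i x = c • x
    · obtain ⟨w, hw⟩ := exists_ne (0 : V)
      exact ⟨w, hw, fun i => (hsc i).imp fun c hc => hc w⟩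
    · push Not at hsc
      obtain ⟨i, hi⟩ := hsc
      obtain ⟨c, hc⟩ := Module.End.exists_eigenvalue (f i)
      obtain ⟨x₀, hx₀⟩ := hc.exists_hasEigenvector
      set E : Submodule K V := (f i).eigenspace c with hE
      have hEbot : E ≠ ⊥ := by
        intro h
        have h1 : x₀ ∈ E := hx₀.1
        rw [h] at h1
        exact hx₀.2 ((Submodule.mem_bot K).mp h1)
      have hEtop : E ≠ ⊤ := by
        intro htop
        obtain ⟨x, hx⟩ := hi c
        have h1 : x ∈ E := htop ▸ Submodule.mem_top
        exact hx (Module.End.mem_eigenspace_iff.mp h1)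
      have hinv : ∀ j, ∀ x ∈ E, f j x ∈ E := by
        intro j x hx
        rw [hE, Module.End.mem_eigenspace_iff] at hx ⊢
        have h1 : f i (f j x) = f j (f i x) := by
          have := congrArg (fun g : Module.End K V => g x) (hcomm i j).eq
          simpa [Module.End.mul_apply] using this
        rw [h1, hx, map_smul]
      have : Nontrivial E := (Submodule.nontrivial_iff_ne_bot).mpr hEbot
      have hlt : finrank K E < finrank K V := Submodule.finrank_lt hEtop
      obtain ⟨w, hw, hwe⟩ := ih E (fun j => (f j).restrict (hinv j)) (fun j k => by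
          ext x
          have := congrArg (fun g : Module.End K V => g (x : V)) (hcomm j k).eq
          simpa [Module.End.mul_apply] using this) (by omega)
      refine ⟨(w : V), fun h => hw (Subtype.ext h), fun j => ?_⟩
      obtain ⟨c', hc'⟩ := hwe j
      exact ⟨c', by simpa using congrArg Subtype.val hc'⟩

variable {A : Type*} [CommRing A] [Algebra K A]

/-- A representation of a commutative algebra on a nonzero finite-dimensional space over an
algebraically closed field has an eigenvector, with a character as eigenvalue. -/
theorem exists_eigen_character {V : Type u} [AddCommGroup V] [Module K V] [FiniteDimensional K V]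
    [Nontrivial V] (ρ : A →ₐ[K] Module.End K V) :
    ∃ (w : V) (χ : A →ₐ[K] K), w ≠ 0 ∧ ∀ y, ρ y w = χ y • w := by
  obtain ⟨w, hw, h⟩ := exists_common_eigenvector (finrank K V) V (fun y : A => ρ y)
    (fun y z => by
      show ρ y * ρ z = ρ z * ρ y
      rw [← map_mul, ← map_mul, mul_comm]) le_rfl
  choose χ hχ using h
  have huniq : ∀ {a b : K}, a • w = b • w → a = b := fun {a b} hab =>
    smul_left_injective K hw hab
  have h1 : χ 1 = 1 := by
    apply huniq
    rw [← hχ, map_one, one_smul]
    rfl
  have hmul : ∀ y z, χ (y * z) = χ y * χ z := by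
    intro y z
    apply huniq
    rw [← hχ, map_mul, Module.End.mul_apply, hχ z, map_smul, hχ y, smul_smul, mul_comm]
  have h0 : χ 0 = 0 := by
    apply huniq
    rw [← hχ, map_zero, zero_smul]
    rfl
  have hadd : ∀ y z, χ (y + z) = χ y + χ z := by
    intro y z
    apply huniq
    rw [← hχ, map_add, LinearMap.add_apply, hχ, hχ, add_smul]
  have hcomm : ∀ c : K, χ (algebraMap K A c) = algebraMap K K c := by
    intro c
    show χ (algebraMap K A c) = c
    apply huniq
    rw [← hχ, AlgHom.commutes, Module.algebraMap_end_apply]
  let χ' : A →ₐ[K] K :=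
    { toFun := χ
      map_one' := h1
      map_mul' := hmul
      map_zero' := h0
      map_add' := hadd
      commutes' := hcomm }
  exact ⟨w, χ', hw, hχ⟩

/-- **Triangularisation of a commutative algebra of endomorphisms**, determinant form: the
determinant of `ρ y` is the product of the values at `y` of `dim V` characters of `A`; a character
of the list takes the value `c` at `y` whenever `ρ y` is the scalar `c`. -/
theorem exists_characters_det (d : ℕ) :
    ∀ (V : Type u) [AddCommGroup V] [Module K V] [FiniteDimensional K V]
      (ρ : A →ₐ[K] Module.End K V), finrank K V = d →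
      ∃ L : Multiset (A →ₐ[K] K), Multiset.card L = d ∧
        (∀ S ∈ L, ∀ (y : A) (c : K), ρ y = c • (1 : Module.End K V) → S y = c) ∧
        ∀ y : A, LinearMap.det (ρ y) = (L.map fun S => S y).prod := by
  induction d with
  | zero =>
    intro V _ _ _ ρ hd
    refine ⟨0, rfl, fun S hS => absurd hS (Multiset.notMem_zero S), fun y => ?_⟩
    simp [LinearMap.det_eq_one_of_finrank_eq_zero hd]
  | succ d ih =>
    intro V _ _ _ ρ hd
    have : Nontrivial V := Module.nontrivial_of_finrank_pos (R := K) (by omega)
    obtain ⟨w, χ, hw, hχ⟩ := exists_eigen_character ρ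
    set W : Submodule K V := K ∙ w with hW
    have hinv : ∀ y, W ≤ W.comap (ρ y) := by
      intro y x hx
      rw [Submodule.mem_comap]
      obtain ⟨a, rfl⟩ := Submodule.mem_span_singleton.mp hx
      rw [map_smul, hχ, smul_comm]
      exact W.smul_mem _ (W.smul_mem _ (Submodule.mem_span_singleton_self w))
    have hmk : ∀ (y : A) (x : V), W.mapQ W (ρ y) (hinv y) (Submodule.Quotient.mk x)
        = Submodule.Quotient.mk (ρ y x) := fun y x => rfl
    -- the quotient representation
    let ρq : A →ₐ[K] Module.End K (V ⧸ W) :=
      { toFun := fun y => W.mapQ W (ρ y) (hinv y)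
        map_one' := by
          refine LinearMap.ext fun q => ?_
          obtain ⟨x, rfl⟩ := Submodule.Quotient.mk_surjective W q
          rw [hmk, map_one]; rfl
        map_mul' := by
          intro y z
          refine LinearMap.ext fun q => ?_
          obtain ⟨x, rfl⟩ := Submodule.Quotient.mk_surjective W q
          show W.mapQ W (ρ (y * z)) (hinv (y * z)) (Submodule.Quotient.mk x)
            = W.mapQ W (ρ y) (hinv y) (W.mapQ W (ρ z) (hinv z) (Submodule.Quotient.mk x))
          rw [hmk, hmk, hmk, map_mul]; rfl
        map_zero' := by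
          refine LinearMap.ext fun q => ?_
          obtain ⟨x, rfl⟩ := Submodule.Quotient.mk_surjective W q
          rw [hmk, map_zero]; rfl
        map_add' := by
          intro y z
          refine LinearMap.ext fun q => ?_
          obtain ⟨x, rfl⟩ := Submodule.Quotient.mk_surjective W q
          show W.mapQ W (ρ (y + z)) (hinv (y + z)) (Submodule.Quotient.mk x)
            = W.mapQ W (ρ y) (hinv y) (Submodule.Quotient.mk x)
              + W.mapQ W (ρ z) (hinv z) (Submodule.Quotient.mk x)
          rw [hmk, hmk, hmk, map_add]; rfl
        commutes' := by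
          intro c
          refine LinearMap.ext fun q => ?_
          obtain ⟨x, rfl⟩ := Submodule.Quotient.mk_surjective W q
          rw [hmk, AlgHom.commutes, Module.algebraMap_end_apply, Module.algebraMap_end_apply]
          rfl }
    have hρq : ∀ y, ρq y = W.mapQ W (ρ y) (hinv y) := fun y => rfl
    have hWrank : finrank K W = 1 := finrank_span_singleton hw
    have hq : finrank K (V ⧸ W) = d := by
      have := Submodule.finrank_quotient_add_finrank W
      omega
    obtain ⟨L, hcard, hsc, hdet⟩ := ih (V ⧸ W) ρq hq
    refine ⟨χ ::ₘ L, by simp [hcard], ?_, ?_⟩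
    · intro S hS y c hy
      rcases Multiset.mem_cons.mp hS with rfl | hS
      · have h1 := hχ y
        rw [hy] at h1
        have h2 : c • w = S y • w := by simpa using h1
        exact (smul_left_injective K hw h2).symm
      · refine hsc S hS y c ?_
        rw [hρq]
        refine LinearMap.ext fun q => ?_
        obtain ⟨x, rfl⟩ := Submodule.Quotient.mk_surjective W q
        rw [hmk, hy]
        rfl
    · intro y
      rw [LinearMap.det_eq_det_mul_det W (ρ y) (hinv y), Multiset.map_cons, Multiset.prod_cons]
      congr 1
      · have hres : LinearMap.restrict (ρ y) (p := W) (q := W) (hinv y) = χ y • LinearMap.id := by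
          refine LinearMap.ext fun x => Subtype.ext ?_
          obtain ⟨x, hx⟩ := x
          obtain ⟨a, rfl⟩ := Submodule.mem_span_singleton.mp hx
          show ρ y (a • w) = χ y • (a • w)
          rw [map_smul, hχ, smul_comm]
        rw [hres, LinearMap.det_smul, hWrank, pow_one, LinearMap.det_id, mul_one]
      · rw [← hρq]; exact hdet y

end CommonEigen

/-- **The abstract fibre formula.**  `A` finite free over `K[X]` (`X ↦ t`), `K` algebraically
closed: the value at `τ` of the norm of `y` is the product of the values of `y` at a multiset of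
`rank A` points of the fibre `t = τ`. -/
theorem exists_fibre_multiset {K : Type*} [Field K] [IsAlgClosed K] {A : Type*} [CommRing A]
    [Algebra K A] [Algebra K[X] A] [IsScalarTower K K[X] A] [Module.Free K[X] A]
    [Module.Finite K[X] A] (τ : K) :
    ∃ L : Multiset (A →ₐ[K] K), Multiset.card L = Module.finrank K[X] A ∧
      (∀ S ∈ L, S (algebraMap K[X] A X) = τ) ∧
      ∀ y : A, (Algebra.norm K[X] y).eval τ = (L.map fun S => S y).prod := by
  classical
  let κ := Module.Free.ChooseBasisIndex K[X] A
  let b : Basis κ K[X] A := Module.Free.chooseBasis K[X] A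
  let φ₁ : A →ₐ[K] Matrix κ κ K[X] := (Algebra.leftMulMatrix b).restrictScalars K
  let φ₂ : Matrix κ κ K[X] →ₐ[K] Matrix κ κ K := (Polynomial.aeval τ : K[X] →ₐ[K] K).mapMatrix
  let φ₃ : Matrix κ κ K →ₐ[K] Module.End K (κ → K) :=
    (Matrix.toLinAlgEquiv' : Matrix κ κ K ≃ₐ[K] _).toAlgHom
  let ρ : A →ₐ[K] Module.End K (κ → K) := φ₃.comp (φ₂.comp φ₁)
  have hρ : ∀ y, ρ y = Matrix.toLin' ((Algebra.leftMulMatrix b y).map (Polynomial.aeval τ)) :=
    fun y => rfl
  obtain ⟨L, hcard, hsc, hdet⟩ :=
    exists_characters_det (K := K) (A := A) (finrank K (κ → K)) (κ → K) ρ rfl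
  refine ⟨L, ?_, ?_, ?_⟩
  · rw [hcard, Module.finrank_fintype_fun_eq_card, Module.finrank_eq_card_chooseBasisIndex]
  · intro S hS
    refine hsc S hS _ τ ?_
    rw [hρ]
    have h1 : Algebra.leftMulMatrix b (algebraMap K[X] A X) = algebraMap K[X] _ X :=
      (Algebra.leftMulMatrix b).commutes X
    have h2 : (algebraMap K[X] (Matrix κ κ K[X]) X).map (Polynomial.aeval τ)
        = algebraMap K (Matrix κ κ K) τ := by
      ext i j
      by_cases hij : i = j
      · subst hij; simp [Matrix.algebraMap_matrix_apply]
      · simp [Matrix.algebraMap_matrix_apply, hij]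
    rw [h1, h2]
    refine LinearMap.ext fun x => ?_
    rw [Matrix.toLin'_apply, Matrix.algebraMap_eq_diagonal]
    ext i
    simp [Matrix.mulVec_diagonal]
  · intro y
    rw [← hdet y, hρ, LinearMap.det_toLin', Algebra.norm_eq_matrix_det b,
      ← Polynomial.coe_aeval_eq_eval, AlgHom.map_det]
    rfl

end Fermat.Agent.MW.Adj.FibreAbs
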