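/-
MW (S17), heights, route γ, brick (N) (helper74 #3152) — helper87.  Mathlib + `HtM/Tame`.

**The nodes lemma** (`exists_nodes`): for a family of absolute values `F` on an infinite field
`K` and a finite index type `ι` there are finitely many linear forms `ℓ_j = ∑ i, c j i * d i` on
`K^ι` (Vandermonde nodes `c j i = a_j ^ i`) and a tame constant `E` such that for every place `v`
and every multiset of at most `N` vectors `d`, one form `ℓ_j` is non-small on ALL of them:
`max_i |d i|_v ≤ E v * |ℓ_j d|_v`.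

Proof: `n = card ι`, `J = N * n + 1` distinct nodes.  Any `n` distinct nodes give an invertible
Vandermonde matrix `W`, and `d = W⁻¹ (W d)` bounds `max |d i|` by a tame constant (the entries of
the finitely many `W⁻¹`) times `max_k |ℓ_{j_k} d|`; so each `d` is bad for at most `n - 1` nodes,
and `N` vectors spoil at most `N (n - 1) < J` nodes.
-/
import Mathlib
import Fermat.Agent.MW.HtM.Tame

set_option autoImplicit false

namespace Fermat.Agent.MW.Adj

open Polynomial Matrix Fermat.Agent.MW.HtM

variable {K : Type*} [Field K] {V : Type*}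

/-- **Vandermonde inversion at one place**: if the `n` forms `∑ i, x k ^ i * d i` at distinct
nodes `x k` are bounded by `m`, then every coordinate of `d` is bounded by a constant (built from
the entries of the inverse Vandermonde matrix) times `m`. -/
theorem abv_le_of_vandermonde (F : AbsFamily K V) {n : ℕ} (x : Fin n → K)
    (hx : Function.Injective x) (v : V) (d : Fin n → K) (m : ℝ)
    (hm : ∀ k, F.abv v (∑ i : Fin n, x k ^ (i : ℕ) * d i) ≤ m) (i : Fin n) :
    F.abv v (d i) ≤ F.archN n v *
      ((∏ p : Fin n × Fin n, max 1 (F.abv v ((Matrix.vandermonde x)⁻¹ p.1 p.2))) * m) := by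
  classical
  set W := Matrix.vandermonde x with hW
  have hdet : IsUnit W.det := (Matrix.det_vandermonde_ne_zero_iff.mpr hx).isUnit
  have h1 : W⁻¹ *ᵥ (W *ᵥ d) = d := by
    rw [Matrix.mulVec_mulVec, Matrix.nonsing_inv_mul W hdet, Matrix.one_mulVec]
  have h2 : ∀ k, (W *ᵥ d) k = ∑ i : Fin n, x k ^ (i : ℕ) * d i := fun k => rfl
  have hm0 : 0 ≤ m := le_trans ((F.abv v).nonneg _) (hm i)
  have h3 : d i = ∑ k, W⁻¹ i k * (W *ᵥ d) k := by
    conv_lhs => rw [← h1]
    rfl
  set P : ℝ := ∏ p : Fin n × Fin n, max 1 (F.abv v (W⁻¹ p.1 p.2)) with hP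
  have hP1 : ∀ k, max 1 (F.abv v (W⁻¹ i k)) ≤ P := by
    intro k
    exact Tame.le_prod Finset.univ (fun (p : Fin n × Fin n) (v : V) => max 1 (F.abv v (W⁻¹ p.1 p.2)))
      (fun p _ => F.tame_max_one _) (Finset.mem_univ (i, k)) v
  have hP0 : 0 ≤ P := le_trans (le_trans zero_le_one (le_max_left _ _)) (hP1 i)
  have h4 := F.abv_sum_le v Finset.univ (fun k => W⁻¹ i k * (W *ᵥ d) k) (M := P * m)
    (mul_nonneg hP0 hm0) (fun k _ => by
      rw [(F.abv v).map_mul]
      refine mul_le_mul ((le_max_right _ _).trans (hP1 k)) ?_ ((F.abv v).nonneg _) hP0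
      rw [h2]
      exact hm k)
  rw [Finset.card_univ, Fintype.card_fin] at h4
  rw [h3]
  exact h4

/-- **The nodes lemma.** -/
theorem exists_nodes [Infinite K] (F : AbsFamily K V) (ι : Type*) [Fintype ι] (N : ℕ) :
    ∃ (J : ℕ) (c : Fin J → ι → K) (E : V → ℝ), Tame E ∧
      ∀ (v : V) (L : Multiset (ι → K)), Multiset.card L ≤ N →
        ∃ j, ∀ d ∈ L, (⨆ i, F.abv v (d i)) ≤ E v * F.abv v (∑ i, c j i * d i) := by
  classical
  set n := Fintype.card ι with hn
  let e : ι ≃ Fin n := Fintype.equivFin ι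
  set J := N * n + 1 with hJ
  let a : Fin J → K := fun j => Infinite.natEmbedding K j.val
  have ha : Function.Injective a := fun j j' h =>
    Fin.ext ((Infinite.natEmbedding K).injective h)
  let c : Fin J → ι → K := fun j i => a j ^ (e i : ℕ)
  -- the tame constant
  let Ps : (Fin n → Fin J) → V → ℝ := fun s v =>
    ∏ p : Fin n × Fin n, max 1 (F.abv v ((Matrix.vandermonde (fun k => a (s k)))⁻¹ p.1 p.2))
  have hPs : ∀ s, Tame (Ps s) := fun s =>
    Tame.prod Finset.univ
      (fun (p : Fin n × Fin n) (v : V) =>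
        max 1 (F.abv v ((Matrix.vandermonde (fun k => a (s k)))⁻¹ p.1 p.2)))
      (fun p _ => F.tame_max_one _)
  let E : V → ℝ := fun v => F.archN n v * ∏ s : Fin n → Fin J, Ps s v
  have hE : Tame E := (F.tame_archN n).mul (Tame.prod Finset.univ Ps (fun s _ => hPs s))
  refine ⟨J, c, E, hE, ?_⟩
  intro v L hL
  -- the form `ℓ_j` in `Fin n`-coordinates
  have hform : ∀ (j : Fin J) (d : ι → K),
      ∑ i, c j i * d i = ∑ i' : Fin n, a j ^ (i' : ℕ) * d (e.symm i') := by
    intro j d
    rw [← Equiv.sum_comp e.symm]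
    refine Finset.sum_congr rfl fun i' _ => ?_
    show a j ^ (e (e.symm i') : ℕ) * d (e.symm i') = _
    rw [Equiv.apply_symm_apply]
  -- the bad nodes of a vector
  let bad : (ι → K) → Finset (Fin J) := fun d =>
    Finset.univ.filter fun j => ¬ (⨆ i, F.abv v (d i)) ≤ E v * F.abv v (∑ i, c j i * d i)
  have hbad : ∀ d, (bad d).card ≤ n - 1 := by
    intro d
    by_contra hcon
    rw [not_le] at hcon
    rcases Nat.eq_zero_or_pos n with hn0 | hnpos
    · -- `ι` is empty: no bad node
      have hcard : 0 < (bad d).card := by omega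
      obtain ⟨j, hj⟩ := Finset.card_pos.mp hcard
      have hj' := (Finset.mem_filter.mp hj).2
      apply hj'
      have : IsEmpty ι := Fintype.card_eq_zero_iff.mp (hn ▸ hn0)
      rw [Real.iSup_of_isEmpty]
      exact mul_nonneg (hE.nonneg v) ((F.abv v).nonneg _)
    · have hcard : n ≤ (bad d).card := by omega
      obtain ⟨T, hTsub, hTcard⟩ := Finset.exists_subset_card_eq hcard
      let eT : T ≃ Fin n := Finset.equivFinOfCardEq hTcard
      let s : Fin n → Fin J := fun k => (eT.symm k : Fin J)
      have hs : Function.Injective s := fun k k' h => eT.symm.injective (Subtype.ext h)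
      have hsbad : ∀ k, s k ∈ bad d := fun k => hTsub (eT.symm k).2
      have : Nonempty (Fin n) := ⟨⟨0, hnpos⟩⟩
      obtain ⟨k₀, hk₀⟩ := Finite.exists_max (fun k : Fin n => F.abv v (∑ i, c (s k) i * d i))
      have hbadk := (Finset.mem_filter.mp (hsbad k₀)).2
      apply hbadk
      have hm0 : 0 ≤ F.abv v (∑ i, c (s k₀) i * d i) := (F.abv v).nonneg _
      refine Real.iSup_le (fun i => ?_) (mul_nonneg (hE.nonneg v) hm0)
      have h1 := abv_le_of_vandermonde F (fun k => a (s k)) (ha.comp hs) v (fun i' => d (e.symm i'))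
        (F.abv v (∑ i, c (s k₀) i * d i)) (fun k => by
          rw [← hform (s k) d]
          exact hk₀ k) (e i)
      rw [Equiv.symm_apply_apply] at h1
      refine h1.trans ?_
      rw [← mul_assoc]
      refine mul_le_mul_of_nonneg_right ?_ hm0
      refine mul_le_mul_of_nonneg_left ?_ ((F.tame_archN n).nonneg v)
      exact Tame.le_prod Finset.univ Ps (fun s _ => hPs s) (Finset.mem_univ s) v
  -- counting
  have hunion : (L.toFinset.biUnion bad).card < J := by
    calc (L.toFinset.biUnion bad).card ≤ ∑ d ∈ L.toFinset, (bad d).card := Finset.card_biUnion_le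
      _ ≤ ∑ _d ∈ L.toFinset, (n - 1) := Finset.sum_le_sum fun d _ => hbad d
      _ = L.toFinset.card * (n - 1) := by rw [Finset.sum_const, smul_eq_mul]
      _ ≤ N * (n - 1) := Nat.mul_le_mul_right _ ((Multiset.toFinset_card_le L).trans hL)
      _ ≤ N * n := Nat.mul_le_mul_left _ (Nat.sub_le n 1)
      _ < J := by rw [hJ]; exact Nat.lt_succ_self _
  obtain ⟨j, hj⟩ : ∃ j : Fin J, j ∉ L.toFinset.biUnion bad := by
    by_contra hall
    have h1 : (Finset.univ : Finset (Fin J)) ⊆ L.toFinset.biUnion bad := fun j _ => by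
      by_contra hj
      exact hall ⟨j, hj⟩
    have h2 := Finset.card_le_card h1
    rw [Finset.card_univ, Fintype.card_fin] at h2
    omega
  refine ⟨j, fun d hd => ?_⟩
  by_contra hcon
  apply hj
  rw [Finset.mem_biUnion]
  exact ⟨d, Multiset.mem_toFinset.mpr hd, Finset.mem_filter.mpr ⟨Finset.mem_univ j, hcon⟩⟩

end Fermat.Agent.MW.Adj
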