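/-
MW (S17), heights, route γ, brick (γ4): the norm and the cofactor element as polynomial maps.

`O` is a commutative `R`-algebra, free with a finite basis `b` (e.g. `R = K[X]`, `O` = the integral
closure of `K[t]` in a function field), and `u : ι → O` a finite family.  For `φ : ι → R` put
`f_φ := ∑ α, φ α • u α`.  Then

* `normPoly b u : MvPolynomial ι R` is homogeneous of degree `card κ` and
  `eval φ (normPoly b u) = Algebra.norm R f_φ`;
* `adjPoly b u k : MvPolynomial ι R` (`k : κ`) is homogeneous of degree `card κ - 1`, and the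
  cofactor element `adjElt b u φ := ∑ k, eval φ (adjPoly b u k) • b k` satisfies
  `f_φ * adjElt b u φ = algebraMap R O (Algebra.norm R f_φ)`.

No Cayley–Hamilton: the adjugate of the multiplication matrix of `f_φ`, applied to the coordinate
vector of `1`, is the coordinate vector of the cofactor element, because
`M_f * adjugate M_f = det M_f • 1`.

Mathlib only.
-/
import Mathlib

set_option autoImplicit false

namespace Fermat.Agent.MW.Adj.Norm

open MvPolynomial Matrix

/-! ### Homogeneity of determinants with homogeneous rows -/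

section Homogeneous

variable {R : Type*} [CommRing R] {ι κ : Type*} [Fintype κ] [DecidableEq κ]

/-- If every entry of row `r` is homogeneous of degree `d r`, the determinant is homogeneous of
degree `∑ r, d r`. -/
theorem det_isHomogeneous (M : Matrix κ κ (MvPolynomial ι R)) (d : κ → ℕ)
    (hM : ∀ r c, (M r c).IsHomogeneous (d r)) : M.det.IsHomogeneous (∑ r, d r) := by
  rw [Matrix.det_apply']
  refine IsHomogeneous.sum _ _ _ fun σ _ => ?_
  have h1 : (((Equiv.Perm.sign σ : ℤˣ) : ℤ) : MvPolynomial ι R).IsHomogeneous 0 := by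
    have : (((Equiv.Perm.sign σ : ℤˣ) : ℤ) : MvPolynomial ι R)
        = C (((Equiv.Perm.sign σ : ℤˣ) : ℤ) : R) := by simp
    rw [this]; exact isHomogeneous_C _ _
  have h2 : (∏ i, M (σ i) i).IsHomogeneous (∑ i, d (σ i)) :=
    IsHomogeneous.prod _ _ _ fun i _ => hM (σ i) i
  have h3 : ∑ i, d (σ i) = ∑ r, d r := Equiv.sum_comp σ d
  have := h1.mul h2
  rwa [zero_add, h3] at this

/-- If every entry is homogeneous of degree `1`, the determinant is homogeneous of degree
`card κ`. -/
theorem det_isHomogeneous_one (M : Matrix κ κ (MvPolynomial ι R))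
    (hM : ∀ r c, (M r c).IsHomogeneous 1) : M.det.IsHomogeneous (Fintype.card κ) := by
  have := det_isHomogeneous M (fun _ => 1) hM
  simpa using this

/-- If every entry is homogeneous of degree `1`, the entries of the adjugate are homogeneous of
degree `card κ - 1`. -/
theorem adjugate_isHomogeneous (M : Matrix κ κ (MvPolynomial ι R))
    (hM : ∀ r c, (M r c).IsHomogeneous 1) (k l : κ) :
    (M.adjugate k l).IsHomogeneous (Fintype.card κ - 1) := by
  rw [Matrix.adjugate_apply]
  have h := det_isHomogeneous (M.updateRow l (Pi.single k 1)) (fun r => if r = l then 0 else 1)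
    (fun r c => by
      by_cases hr : r = l
      · subst hr
        simp only [Matrix.updateRow_self, if_true]
        by_cases hc : c = k
        · subst hc; simpa using isHomogeneous_one ι R
        · rw [Pi.single_eq_of_ne hc]; exact isHomogeneous_zero _ _ _
      · simp only [Matrix.updateRow_ne hr, if_neg hr]; exact hM r c)
  have hsum : (∑ r : κ, if r = l then 0 else 1) = Fintype.card κ - 1 := by
    have : (∑ r : κ, if r = l then 0 else 1) = ∑ r : κ, (1 - if r = l then 1 else 0) :=
      Finset.sum_congr rfl fun r _ => by split_ifs <;> rfl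
    rw [this]
    have h2 : ∀ r : κ, (if r = l then 1 else 0 : ℕ) ≤ 1 := fun r => by split_ifs <;> simp
    rw [Finset.sum_tsub_distrib _ (fun r _ => h2 r)]
    simp
  rwa [hsum] at h

end Homogeneous

/-! ### The generic element -/

variable {R O : Type*} [CommRing R] [CommRing O] [Algebra R O]
  {κ : Type*} [Fintype κ] [DecidableEq κ] (b : Module.Basis κ R O)
  {ι : Type*} [Fintype ι] (u : ι → O)

/-- The multiplication matrix of the generic element `∑ α, X α • u α`. -/
noncomputable def genMatrix : Matrix κ κ (MvPolynomial ι R) :=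
  Matrix.of fun i j => ∑ α, X α * C (Algebra.leftMulMatrix b (u α) i j)

theorem genMatrix_apply (i j : κ) :
    genMatrix b u i j = ∑ α, X α * C (Algebra.leftMulMatrix b (u α) i j) := rfl

theorem genMatrix_isHomogeneous (i j : κ) : (genMatrix b u i j).IsHomogeneous 1 := by
  rw [genMatrix_apply]
  refine IsHomogeneous.sum _ _ _ fun α _ => ?_
  have := (isHomogeneous_X R α).mul (isHomogeneous_C ι (Algebra.leftMulMatrix b (u α) i j))
  simpa using this

/-- Specialising the generic multiplication matrix. -/
theorem map_genMatrix (φ : ι → R) :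
    (MvPolynomial.eval φ).mapMatrix (genMatrix b u) =
      Algebra.leftMulMatrix b (∑ α, φ α • u α) := by
  ext i j
  simp only [RingHom.mapMatrix_apply, Matrix.map_apply, genMatrix_apply, map_sum, map_mul,
    eval_X, eval_C, map_smul, Matrix.sum_apply, Matrix.smul_apply, smul_eq_mul]

/-- The norm form: `eval φ (normPoly b u) = N_{O/R}(∑ α, φ α • u α)`. -/
noncomputable def normPoly : MvPolynomial ι R := (genMatrix b u).det

/-- The coordinates of the cofactor element. -/
noncomputable def adjPoly (k : κ) : MvPolynomial ι R :=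
  ∑ l, (genMatrix b u).adjugate k l * C (b.repr 1 l)

/-- The cofactor element of `∑ α, φ α • u α`. -/
noncomputable def adjElt (φ : ι → R) : O := ∑ k, MvPolynomial.eval φ (adjPoly b u k) • b k

theorem normPoly_isHomogeneous : (normPoly b u).IsHomogeneous (Fintype.card κ) :=
  det_isHomogeneous_one _ (genMatrix_isHomogeneous b u)

theorem adjPoly_isHomogeneous (k : κ) : (adjPoly b u k).IsHomogeneous (Fintype.card κ - 1) := by
  refine IsHomogeneous.sum _ _ _ fun l _ => ?_
  have := (adjugate_isHomogeneous _ (genMatrix_isHomogeneous b u) k l).mul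
    (isHomogeneous_C ι (b.repr 1 l))
  simpa using this

theorem eval_normPoly (φ : ι → R) :
    MvPolynomial.eval φ (normPoly b u) = Algebra.norm R (∑ α, φ α • u α) := by
  rw [normPoly, RingHom.map_det, map_genMatrix, Algebra.norm_eq_matrix_det b]

theorem eval_adjPoly (φ : ι → R) (k : κ) :
    MvPolynomial.eval φ (adjPoly b u k) =
      ((Algebra.leftMulMatrix b (∑ α, φ α • u α)).adjugate *ᵥ (b.repr 1)) k := by
  have h := RingHom.map_adjugate (MvPolynomial.eval φ) (genMatrix b u)
  rw [map_genMatrix] at h
  rw [adjPoly, map_sum, Matrix.mulVec, dotProduct]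
  refine Finset.sum_congr rfl fun l _ => ?_
  rw [map_mul, eval_C, ← h]
  rfl

theorem repr_adjElt (φ : ι → R) (k : κ) :
    b.repr (adjElt b u φ) k =
      ((Algebra.leftMulMatrix b (∑ α, φ α • u α)).adjugate *ᵥ (b.repr 1)) k := by
  rw [adjElt, ← eval_adjPoly]
  simp [Module.Basis.repr_self, Finsupp.single_apply]

/-- **The cofactor identity**: `f_φ * adjElt φ = N(f_φ)`. -/
theorem mul_adjElt (φ : ι → R) :
    (∑ α, φ α • u α) * adjElt b u φ = algebraMap R O (Algebra.norm R (∑ α, φ α • u α)) := by
  set f : O := ∑ α, φ α • u α with hf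
  apply b.repr.injective
  ext k
  have h1 : (b.repr (f * adjElt b u φ) : κ → R) =
      Algebra.leftMulMatrix b f *ᵥ (b.repr (adjElt b u φ)) :=
    (Algebra.leftMulMatrix_mulVec_repr b f (adjElt b u φ)).symm
  have h2 : (b.repr (adjElt b u φ) : κ → R) =
      (Algebra.leftMulMatrix b f).adjugate *ᵥ (b.repr 1) := funext fun k => repr_adjElt b u φ k
  have h3 : (b.repr (f * adjElt b u φ) : κ → R) k
      = (Algebra.norm R f • (b.repr 1 : κ → R)) k := by
    rw [h1, h2, Matrix.mulVec_mulVec, Matrix.mul_adjugate, Matrix.smul_mulVec, Matrix.one_mulVec,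
      Algebra.norm_eq_matrix_det b]
  rw [h3, Algebra.algebraMap_eq_smul_one, map_smul]
  rfl

/-- The cofactor identity in terms of the norm form. -/
theorem mul_adjElt' (φ : ι → R) :
    (∑ α, φ α • u α) * (∑ k, MvPolynomial.eval φ (adjPoly b u k) • b k) =
      algebraMap R O (MvPolynomial.eval φ (normPoly b u)) := by
  rw [eval_normPoly]; exact mul_adjElt b u φ

end Fermat.Agent.MW.Adj.Norm
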