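import Fermat.Agent.Lib.FF.SettingP
import Fermat.Agent.Lib.FF.RRFF1
import Fermat.Agent.Lib.FF.Holo
import Fermat.Agent.Lib.Red.NormFiber
import Fermat.Agent.Lib.Red.NormPlace
import Fermat.Agent.Lib.Red.PlaceRedNorm

/-!
# Route γ, brick (γ5): the roots of the norm polynomial

`F` a function field of one variable over an algebraically closed field `K` of characteristic `0`
(`h : IsFF1 K F x`), `t ∈ F` transcendental.  For `f ∈ F`, `f ≠ 0`, whose norm to `K(t)` is a
polynomial `q(t)`:

* `sum_ord_fiber` : `∑_{P : t(P) = c} ord_P f = rootMultiplicity c q`   (roots of the norm polynomial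
  = `t`-images of the zeros of `f`, with multiplicity);
* the chart ring `O_t = integralClosure K[t] F` is free of finite rank over `K[t]`, its norm is the
  field norm, and the norm of an element of `O_t` is a polynomial in `t`.
-/

set_option autoImplicit false

noncomputable section

namespace Fermat.Agent.MW.Adj.Roots

open Polynomial IntermediateField AlgebraicCurve
open Fermat.Agent.Lib.FF Fermat.Agent.Lib.Red

variable {K F : Type*} [Field K] [Field F] [Algebra K F] [IsAlgClosed K] [CharZero K] {x : F}

omit [IsAlgClosed K] [CharZero K] in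
/-- Elements of `K(t)` are quotients of polynomials in the generator. -/
theorem hgen_adjoin (t : F) :
    ∀ f : K⟮t⟯, ∃ r s : K[X], f = aeval (AdjoinSimple.gen K t) r / aeval (AdjoinSimple.gen K t) s := by
  intro f
  obtain ⟨r, s, hrs⟩ := (IntermediateField.mem_adjoin_simple_iff K f.1).mp f.2
  refine ⟨r, s, Subtype.ext ?_⟩
  rw [hrs]
  simp only [IntermediateField.coe_div]
  rw [← IntermediateField.algebraMap_apply, ← IntermediateField.algebraMap_apply,
    ← aeval_algebraMap_apply, ← aeval_algebraMap_apply, AdjoinSimple.algebraMap_gen]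

omit [IsAlgClosed K] [CharZero K] in
/-- A nonconstant function takes every value. -/
theorem exists_place_sub_pos (h : IsFF1 K F x) {t : F} (ht : Transcendental K t) (c : K) :
    ∃ P : Place K F, 0 < P.ord (t - algebraMap K F c) := by
  by_contra hne
  push Not at hne
  have hne0 : t - algebraMap K F c ≠ 0 := by
    intro h0
    apply ht
    rw [sub_eq_zero.mp h0]
    exact isAlgebraic_algebraMap c
  obtain ⟨d, hd⟩ := h.const_of_ord_nonneg (t - algebraMap K F c)⁻¹ (fun v => by
    rw [Place.ord_inv]
    have := hne v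
    omega)
  apply ht
  have : t = algebraMap K F c + (algebraMap K F d)⁻¹ := by
    rw [← hd, inv_inv]; ring
  rw [this, ← map_inv₀, ← map_add]
  exact isAlgebraic_algebraMap _

/-- **(γ5), field form.** If the norm of `f ≠ 0` to `K(t)` is the polynomial `q(t)`, the orders of
`f` at the places with `t = c` add up to the multiplicity of `c` as a root of `q`. -/
theorem sum_ord_fiber (h : IsFF1 K F x) {t : F} (ht : Transcendental K t)
    (f : F) (hf : f ≠ 0) (q : K[X])
    (hN : algebraMap K⟮t⟯ F (Algebra.norm K⟮t⟯ f) = aeval t q) (c : K)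
    (s : Finset (Place K F))
    (hs : ∀ P, P ∈ s ↔ 0 < P.ord (t - algebraMap K F c) ∧ P.ord f ≠ 0) :
    ∑ P ∈ s, P.ord f = (q.rootMultiplicity c : ℤ) := by
  have := (h.of_transcendental ht).finiteDimensional
  have := h.hasPrincipalDivisors
  obtain ⟨P₀, hP₀⟩ := exists_place_sub_pos h ht c
  have hq : q ≠ 0 := by
    rintro rfl
    rw [map_zero] at hN
    have h0 : Algebra.norm K⟮t⟯ f = 0 := (algebraMap K⟮t⟯ F).injective (by rw [hN, map_zero])
    exact hf (Algebra.norm_eq_zero_iff.mp h0)
  have hz : algebraMap K⟮t⟯ F (AdjoinSimple.gen K t) = t := AdjoinSimple.algebraMap_gen K t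
  have key := NormFiber.fiber_sum_eq (K := K) (F := K⟮t⟯) (E := F) (z := AdjoinSimple.gen K t)
    (hgen_adjoin t) c P₀ (by rw [hz]; exact hP₀) f
    (NormPlace.ord_norm_eq_sum_of_isSeparable (P₀.restrict K⟮t⟯)
      (PlaceRedNorm.resK_restrict P₀ (h.resK P₀)) (fun w => h.deg_eq_one w) f hf)
    q 1 hq one_ne_zero (by rw [hz, hN, map_one, div_one]) s (by rw [hz]; exact hs)
  rw [key]
  simp

/-! ### The chart ring `O_t` -/

section Ring

open scoped IntermediateField.algebraAdjoinAdjoin

variable (K) in
/-- `K[t]` as a subalgebra of `F`. -/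
abbrev Kt (t : F) : Subalgebra K F := Algebra.adjoin K {t}

omit [IsAlgClosed K] [CharZero K] in
/-- `K[X] ≃ K[t]` for transcendental `t`. -/
def polyEquiv {t : F} (ht : Transcendental K t) : K[X] ≃ₐ[K] Kt K t :=
  (AlgEquiv.ofInjective (aeval t) (transcendental_iff_injective.mp ht)).trans
    (Subalgebra.equivOfEq _ _ (Algebra.adjoin_singleton_eq_range_aeval K t).symm)

omit [IsAlgClosed K] [CharZero K] in
theorem coe_polyEquiv {t : F} (ht : Transcendental K t) (p : K[X]) :
    (polyEquiv ht p : F) = aeval t p := rfl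

omit [IsAlgClosed K] [CharZero K] in
theorem isPrincipalIdealRing_Kt {t : F} (ht : Transcendental K t) :
    IsPrincipalIdealRing (Kt K t) :=
  IsPrincipalIdealRing.of_surjective (polyEquiv ht).toRingEquiv.toRingHom
    (polyEquiv ht).surjective

/-- The chart ring: functions integral over `K[t]` (= regular wherever `t` is regular). -/
abbrev Ot (t : F) : Subalgebra (Kt K t) F := integralClosure (Kt K t) F

theorem free_Ot (h : IsFF1 K F x) {t : F} (ht : Transcendental K t) :
    Module.Free (Kt K t) (Ot (K := K) t) := by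
  have := (h.of_transcendental ht).finiteDimensional
  have := isPrincipalIdealRing_Kt ht
  exact IsIntegralClosure.module_free (Kt K t) K⟮t⟯ F (Ot (K := K) t)

theorem finite_Ot (h : IsFF1 K F x) {t : F} (ht : Transcendental K t) :
    Module.Finite (Kt K t) (Ot (K := K) t) := by
  have := (h.of_transcendental ht).finiteDimensional
  have := isPrincipalIdealRing_Kt ht
  exact IsIntegralClosure.finite (Kt K t) K⟮t⟯ F (Ot (K := K) t)

theorem finrank_Ot (h : IsFF1 K F x) {t : F} (ht : Transcendental K t) :
    Module.finrank (Kt K t) (Ot (K := K) t) = Module.finrank K⟮t⟯ F := by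
  have := (h.of_transcendental ht).finiteDimensional
  have := isPrincipalIdealRing_Kt ht
  exact IsIntegralClosure.rank (Kt K t) K⟮t⟯ F (Ot (K := K) t)

/-- The norm of the free `K[t]`-algebra `O_t` is the field norm of `F / K(t)`. -/
theorem coe_norm_Ot (h : IsFF1 K F x) {t : F} (ht : Transcendental K t) (f : Ot (K := K) t) :
    ((Algebra.norm (Kt K t) f : Kt K t) : F) = algebraMap K⟮t⟯ F (Algebra.norm K⟮t⟯ (f : F)) := by
  have := (h.of_transcendental ht).finiteDimensional
  have := isPrincipalIdealRing_Kt ht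
  have := free_Ot h ht
  have := finite_Ot h ht
  have : IsLocalization (Algebra.algebraMapSubmonoid (Ot (K := K) t) (nonZeroDivisors (Kt K t))) F :=
    IsIntegralClosure.isLocalization (Kt K t) K⟮t⟯ F (Ot (K := K) t)
  have key := Algebra.norm_localization (R := Kt K t) (Rₘ := K⟮t⟯) (S := Ot (K := K) t) (Sₘ := F)
    (nonZeroDivisors (Kt K t)) f
  have h2 := congrArg (algebraMap K⟮t⟯ F) key
  rw [show algebraMap (Ot (K := K) t) F f = (f : F) from rfl] at h2
  rw [h2]
  rfl

omit [CharZero K] in
/-- `O_t` = functions regular at every place at which `t` is regular. -/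
theorem mem_Ot_iff (h : IsFF1 K F x) {t : F} (ht : Transcendental K t) (f : F) :
    f ∈ Ot (K := K) t ↔ ∀ P : Place K F, 0 ≤ P.ord t → 0 ≤ P.ord f := by
  have := (h.of_transcendental ht).finiteDimensional
  exact Holo.isIntegral_adjoin_iff t f

/-- The norm polynomial of an element of `O_t`, as an element of `K[X]`. -/
def normPolyT {t : F} (ht : Transcendental K t) (f : Ot (K := K) t) : K[X] :=
  (polyEquiv ht).symm (Algebra.norm (Kt K t) f)

theorem aeval_normPolyT (h : IsFF1 K F x) {t : F} (ht : Transcendental K t) (f : Ot (K := K) t) :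
    aeval t (normPolyT ht f) = algebraMap K⟮t⟯ F (Algebra.norm K⟮t⟯ (f : F)) := by
  rw [← coe_norm_Ot h ht f, ← coe_polyEquiv ht, normPolyT, AlgEquiv.apply_symm_apply]

omit [IsAlgClosed K] [CharZero K] in
theorem aeval_normPolyT' {t : F} (ht : Transcendental K t) (f : Ot (K := K) t) :
    aeval t (normPolyT ht f) = ((Algebra.norm (Kt K t) f : Kt K t) : F) := by
  rw [← coe_polyEquiv ht, normPolyT, AlgEquiv.apply_symm_apply]

/-- **(γ5), ring form**: for `f ∈ O_t`, `f ≠ 0`, the multiplicity of `c` as a root of the norm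
polynomial is the sum of the orders of `f` at the places with `t = c`. -/
theorem rootMultiplicity_normPolyT (h : IsFF1 K F x) {t : F} (ht : Transcendental K t)
    (f : Ot (K := K) t) (hf : (f : F) ≠ 0) (c : K) (s : Finset (Place K F))
    (hs : ∀ P, P ∈ s ↔ 0 < P.ord (t - algebraMap K F c) ∧ P.ord (f : F) ≠ 0) :
    ((normPolyT ht f).rootMultiplicity c : ℤ) = ∑ P ∈ s, P.ord (f : F) :=
  (sum_ord_fiber h ht (f : F) hf (normPolyT ht f) (aeval_normPolyT h ht f).symm c s hs).symm

theorem normPolyT_ne_zero (h : IsFF1 K F x) {t : F} (ht : Transcendental K t)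
    (f : Ot (K := K) t) (hf : (f : F) ≠ 0) : normPolyT ht f ≠ 0 := by
  intro h0
  have h1 := aeval_normPolyT h ht f
  rw [h0, map_zero] at h1
  have := (h.of_transcendental ht).finiteDimensional
  have h2 : Algebra.norm K⟮t⟯ (f : F) = 0 := (algebraMap K⟮t⟯ F).injective (by rw [← h1, map_zero])
  exact hf (Algebra.norm_eq_zero_iff.mp h2)

end Ring

end Fermat.Agent.MW.Adj.Roots

end
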